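import Fermat.Agent.RiemannMangoldt.Xi
import Fermat.Agent.Levinson.Companion
import Fermat.Agent.ZeroOrdinates.Oscillatory

/-!
# The archimedean factor of `ξ` on the line `re s = 3`

`gammaRatio T y` is `γ (3 + iT + iy) / γ (3 + iT)` times `exp (-i a y)`, `a` the logarithmic
derivative at `3 + iT`; it is at most `exp (24 |y|)` in absolute value and tends to `1` as `T → ∞`.
-/

set_option autoImplicit false

noncomputable section

namespace FA.DeBruijnNewman

open Complex Filter Topology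
open FA.RiemannMangoldt (xiFn xiFn_eq differentiableAt_realGamma)
open FA.Levinson (gammaLog gammaLog_eq_digamma)

/-- `s (s - 1) Γℝ s / 2`. -/
def xiGamma (s : ℂ) : ℂ := s * (s - 1) / 2 * Gammaℝ s

/-- Its logarithmic derivative. -/
def xiGammaLog (s : ℂ) : ℂ := 1 / s + 1 / (s - 1) + gammaLog s

/-- The point `3 + iv`. -/
def linePt (v : ℝ) : ℂ := 3 + (v : ℂ) * I

theorem linePt_re (v : ℝ) : (linePt v).re = 3 := by simp [linePt]

theorem linePt_im (v : ℝ) : (linePt v).im = v := by simp [linePt]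

theorem linePt_ne (v : ℝ) : linePt v ≠ 0 ∧ linePt v - 1 ≠ 0 ∧ linePt v ≠ 1 := by
  refine ⟨fun h => ?_, fun h => ?_, fun h => ?_⟩ <;>
    · have := congrArg re h
      norm_num [linePt_re] at this

theorem hasDerivAt_linePt (v : ℝ) : HasDerivAt linePt I v :=
  (((hasDerivAt_id' v).ofReal_comp.mul_const I).const_add 3).congr_deriv (by simp)

theorem xiGamma_ne_zero (v : ℝ) : xiGamma (linePt v) ≠ 0 :=
  mul_ne_zero (div_ne_zero (mul_ne_zero (linePt_ne v).1 (linePt_ne v).2.1) two_ne_zero)
    (Gammaℝ_ne_zero_of_re_pos (by rw [linePt_re]; norm_num))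

theorem xiFn_linePt (v : ℝ) : xiFn (linePt v) = xiGamma (linePt v) * riemannZeta (linePt v) := by
  obtain ⟨-, h1, h1'⟩ := linePt_ne v
  rw [xiFn_eq (by rw [linePt_re]; norm_num), riemannZeta_eq_inv_sub_mul h1', xiGamma]
  field_simp

theorem hasDerivAt_xiGamma (v : ℝ) : HasDerivAt (fun u : ℝ => xiGamma (linePt u))
    (xiGamma (linePt v) * xiGammaLog (linePt v) * I) v := by
  obtain ⟨h0, h1, -⟩ := linePt_ne v
  have hG : Gammaℝ (linePt v) ≠ 0 := Gammaℝ_ne_zero_of_re_pos (by rw [linePt_re]; norm_num)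
  have hg := (differentiableAt_realGamma (s := linePt v) (by rw [linePt_re]; norm_num)).hasDerivAt
  have h : HasDerivAt xiGamma (xiGamma (linePt v) * xiGammaLog (linePt v)) (linePt v) := by
    refine ((((hasDerivAt_id' (linePt v)).mul ((hasDerivAt_id' (linePt v)).sub_const 1)).div_const
      2).mul hg).congr_deriv ?_
    simp only [Pi.mul_apply, xiGamma, xiGammaLog, gammaLog]
    field_simp
  exact h.comp v (hasDerivAt_linePt v)

theorem norm_xiGammaLog_sub_log (v : ℝ) :
    ‖xiGammaLog (linePt v) -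
      (((Real.log (|v| / 2 + 2) - Real.log Real.pi) / 2 : ℝ) : ℂ)‖ ≤ 11 := by
  obtain ⟨h0, h1, -⟩ := linePt_ne v
  have hre : (linePt v / 2).re = 3 / 2 := by simp [linePt_re]
  have hψ := FA.PairCorrelation.norm_digamma_sub_log_le (z := linePt v / 2) (by rw [hre]; norm_num)
    (by rw [hre]; norm_num)
  rw [show |(linePt v / 2).im| = |v| / 2 by simp [linePt_im, abs_div]] at hψ
  have i0 : ‖1 / linePt v‖ ≤ 1 / 3 := by
    rw [norm_div, norm_one]
    exact one_div_le_one_div_of_le (by norm_num) ((linePt_re v).symm.le.trans (re_le_norm _))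
  have i1 : ‖1 / (linePt v - 1)‖ ≤ 1 / 2 := by
    rw [norm_div, norm_one]
    refine one_div_le_one_div_of_le two_pos (le_trans ?_ (re_le_norm _))
    rw [sub_re, linePt_re, one_re]
    norm_num
  rw [xiGammaLog, gammaLog_eq_digamma (by rw [linePt_re]; norm_num)]
  generalize deriv Complex.Gamma (linePt v / 2) / Complex.Gamma (linePt v / 2) = ψ at hψ
  rw [show 1 / linePt v + 1 / (linePt v - 1) + (-((Real.log Real.pi : ℝ) : ℂ) / 2 + ψ / 2) -
      (((Real.log (|v| / 2 + 2) - Real.log Real.pi) / 2 : ℝ) : ℂ) =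
      1 / linePt v + 1 / (linePt v - 1) +
        (ψ - ((Real.log (|v| / 2 + 2) : ℝ) : ℂ)) / 2 by push_cast; ring]
  refine (norm_add_le _ _).trans ((add_le_add (norm_add_le _ _) le_rfl).trans ?_)
  rw [norm_div _ (2 : ℂ), Complex.norm_two]
  linarith

theorem abs_im_xiGammaLog (v : ℝ) : |(xiGammaLog (linePt v)).im| ≤ 11 := by
  have := (abs_im_le_norm _).trans (norm_xiGammaLog_sub_log v)
  simpa only [sub_im, ofReal_im, sub_zero] using this

theorem tendsto_re_xiGammaLog :
    Tendsto (fun T : ℝ => (xiGammaLog (linePt T)).re) atTop atTop := by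
  refine tendsto_atTop_mono (f := fun T : ℝ => (Real.log (|T| / 2 + 2) - Real.log Real.pi) / 2 - 11)
    (fun T => ?_) ?_
  · have := abs_le.1 ((abs_re_le_norm _).trans (norm_xiGammaLog_sub_log T))
    simp only [sub_re, ofReal_re] at this
    linarith [this.1]
  · have h : Tendsto (fun T : ℝ => |T| / 2 + 2) atTop atTop :=
      tendsto_atTop_add_const_right _ _ (tendsto_abs_atTop_atTop.atTop_div_const two_pos)
    exact tendsto_atTop_add_const_right _ _
      ((tendsto_atTop_add_const_right _ _ (Real.tendsto_log_atTop.comp h)).atTop_div_const two_pos)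

theorem norm_xiGammaLog_sub_le {T u : ℝ} (hu : |u| + 2 ≤ T / 2) :
    ‖xiGammaLog (linePt (T + u)) - xiGammaLog (linePt T)‖ ≤ 40 * (|u| + 1) / T := by
  have hT : 0 < T := by linarith [abs_nonneg u]
  obtain ⟨h0, h1, -⟩ := linePt_ne T
  obtain ⟨k0, k1, -⟩ := linePt_ne (T + u)
  have hu' := abs_le.1 (le_refl |u|)
  have hb : ∀ v a : ℝ, T / 2 ≤ v → ‖1 / (linePt v - (a : ℂ))‖ ≤ 2 / T := fun v a hv => by
    rw [norm_div, norm_one, show 2 / T = 1 / (T / 2) by rw [one_div_div]]
    refine one_div_le_one_div_of_le (by linarith) (le_trans ?_ (abs_im_le_norm _))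
    rw [sub_im, linePt_im, ofReal_im, sub_zero]
    exact hv.trans (le_abs_self v)
  have b1 := hb T 0 (by linarith)
  have b2 := hb T 1 (by linarith)
  have b3 := hb (T + u) 0 (by linarith)
  have b4 := hb (T + u) 1 (by linarith)
  simp only [ofReal_zero, sub_zero, ofReal_one] at b1 b2 b3 b4
  have hre : ∀ v, 0 < (linePt v / 2).re := fun v => by simp [linePt_re]
  have him : ∀ v, T / 2 ≤ v → T / 4 ≤ |(linePt v / 2).im| := fun v hv => by
    rw [show (linePt v / 2).im = v / 2 by simp [linePt_im]]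
    exact le_trans (by linarith) (le_abs_self _)
  have hψ := FA.ZeroOrdinates.norm_digamma_sub_le (z := linePt (T + u) / 2) (w := linePt T / 2)
    (Y := T / 4) (hre _) (hre _) (by linarith [abs_nonneg u]) (him _ (by linarith))
    (him _ (by linarith))
  rw [show linePt (T + u) / 2 - linePt T / 2 = ((u / 2 : ℝ) : ℂ) * I by
    simp [linePt]; ring, norm_mul, norm_I, mul_one, Complex.norm_real, Real.norm_eq_abs,
    abs_div, abs_two] at hψ
  rw [xiGammaLog, xiGammaLog, gammaLog_eq_digamma (by rw [linePt_re]; norm_num),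
    gammaLog_eq_digamma (by rw [linePt_re]; norm_num)]
  generalize deriv Complex.Gamma (linePt (T + u) / 2) / Complex.Gamma (linePt (T + u) / 2) = p
    at hψ
  generalize deriv Complex.Gamma (linePt T / 2) / Complex.Gamma (linePt T / 2) = q at hψ
  rw [show ∀ a b c d e : ℂ, a + b + (e + p / 2) - (c + d + (e + q / 2)) =
    a + b - c - d + (p - q) / 2 by intros; ring]
  refine (norm_add_le _ _).trans ((add_le_add ((norm_sub_le _ _).trans (add_le_add
    ((norm_sub_le _ _).trans (add_le_add (norm_add_le _ _) le_rfl)) le_rfl)) le_rfl).trans ?_)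
  rw [norm_div _ (2 : ℂ), Complex.norm_two]
  have e : 5 * (|u| / 2) / (T / 4) / 2 = 5 * |u| / T := by field_simp; ring
  have h40 : 40 * (|u| + 1) / T = 4 * (2 / T) + 5 * |u| / T + (35 * |u| + 32) / T := by
    field_simp; ring
  have hp : (0 : ℝ) ≤ (35 * |u| + 32) / T := by positivity
  linarith

/-- `γ (3 + iT + iy) / γ (3 + iT) exp (-i a y)`. -/
def gammaRatio (T y : ℝ) : ℂ :=
  xiGamma (linePt (T + y)) / xiGamma (linePt T) * cexp (-(I * xiGammaLog (linePt T) * y))

theorem gammaRatio_zero (T : ℝ) : gammaRatio T 0 = 1 := by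
  simp [gammaRatio, xiGamma_ne_zero T]

theorem gammaRatio_ne_zero (T y : ℝ) : gammaRatio T y ≠ 0 :=
  mul_ne_zero (div_ne_zero (xiGamma_ne_zero _) (xiGamma_ne_zero _)) (exp_ne_zero _)

theorem hasDerivAt_gammaRatio (T y : ℝ) : HasDerivAt (gammaRatio T)
    (gammaRatio T y * ((xiGammaLog (linePt (T + y)) - xiGammaLog (linePt T)) * I)) y := by
  refine ((((hasDerivAt_xiGamma (T + y)).comp_const_add T y).div_const _).mul
    ((((hasDerivAt_id' y).ofReal_comp.const_mul (I * xiGammaLog (linePt T))).neg).cexp)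
    ).congr_deriv ?_
  simp only [gammaRatio, Pi.neg_apply]
  push_cast
  ring

theorem norm_gammaRatio_le (T y : ℝ) : ‖gammaRatio T y‖ ≤ Real.exp (24 * |y|) := by
  obtain ⟨φ, hφ⟩ : ∃ φ : ℝ → ℝ, φ = fun u => Real.log (‖gammaRatio T u‖ ^ 2) := ⟨_, rfl⟩
  have hpos : ∀ u, 0 < ‖gammaRatio T u‖ ^ 2 := fun u =>
    pow_pos (norm_pos_iff.2 (gammaRatio_ne_zero T u)) 2
  have hd : ∀ u, HasDerivAt φ
      (-2 * ((xiGammaLog (linePt (T + u))).im - (xiGammaLog (linePt T)).im)) u := fun u => by
    rw [hφ]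
    refine (((hasDerivAt_gammaRatio T u).norm_sq).log (hpos u).ne').congr_deriv ?_
    rw [div_eq_iff (hpos u).ne', Complex.inner, Complex.sq_norm, Complex.normSq_apply]
    simp only [mul_re, mul_im, conj_re, conj_im, sub_re, sub_im, I_re, I_im]
    ring
  have h := convex_univ.norm_image_sub_le_of_norm_hasDerivWithin_le (C := 48)
    (fun u _ => (hd u).hasDerivWithinAt) (fun u _ => by
      rw [Real.norm_eq_abs, abs_mul, abs_neg, abs_two]
      linarith [abs_sub (xiGammaLog (linePt (T + u))).im (xiGammaLog (linePt T)).im,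
        abs_im_xiGammaLog (T + u), abs_im_xiGammaLog T]) (Set.mem_univ (0 : ℝ)) (Set.mem_univ y)
  rw [Real.norm_eq_abs, sub_zero, Real.norm_eq_abs, hφ] at h
  simp only [gammaRatio_zero, norm_one, one_pow, Real.log_one, sub_zero] at h
  rw [Real.log_pow] at h
  push_cast at h
  rw [← Real.exp_log (norm_pos_iff.2 (gammaRatio_ne_zero T y)), Real.exp_le_exp]
  linarith [le_abs_self (2 * Real.log ‖gammaRatio T y‖)]

theorem norm_gammaRatio_sub_one {T y : ℝ} (hy : |y| + 2 ≤ T / 2) :
    ‖gammaRatio T y - 1‖ ≤ Real.exp (24 * |y|) * (40 * (|y| + 1) / T) * |y| := by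
  have hT : 0 < T := by linarith [abs_nonneg y]
  have h := (convex_Icc (-|y|) |y|).norm_image_sub_le_of_norm_hasDerivWithin_le
    (C := Real.exp (24 * |y|) * (40 * (|y| + 1) / T))
    (fun u _ => (hasDerivAt_gammaRatio T u).hasDerivWithinAt) (fun u hu => by
      have hu' : |u| ≤ |y| := abs_le.2 hu
      rw [norm_mul, norm_mul, norm_I, mul_one]
      refine mul_le_mul ((norm_gammaRatio_le T u).trans (Real.exp_le_exp.2 (by linarith)))
        ((norm_xiGammaLog_sub_le (by linarith)).trans ?_) (norm_nonneg _) (Real.exp_pos _).le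
      gcongr)
    (show (0 : ℝ) ∈ Set.Icc (-|y|) |y| from ⟨by simp, abs_nonneg y⟩)
    (show y ∈ Set.Icc (-|y|) |y| from abs_le.1 le_rfl)
  simpa [gammaRatio_zero] using h

theorem tendsto_gammaRatio (y : ℝ) : Tendsto (fun T : ℝ => gammaRatio T y) atTop (𝓝 1) := by
  rw [tendsto_iff_norm_sub_tendsto_zero]
  refine squeeze_zero' (Eventually.of_forall fun T => norm_nonneg _)
    ((eventually_ge_atTop (2 * (|y| + 2))).mono fun T hT =>
      norm_gammaRatio_sub_one (by linarith)) ?_
  simpa using ((tendsto_const_nhds (x := 40 * (|y| + 1))).div_atTop tendsto_id).const_mul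
    (Real.exp (24 * |y|)) |>.mul_const |y|

theorem continuous_gammaRatio (T : ℝ) : Continuous (gammaRatio T) :=
  continuous_iff_continuousAt.2 fun y => (hasDerivAt_gammaRatio T y).continuousAt

end FA.DeBruijnNewman

end
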