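import Fermat.Agent.DeBruijn.Heat
import Mathlib.Analysis.SpecialFunctions.Gaussian.GaussianIntegral
import Mathlib.MeasureTheory.Integral.Gamma
import Mathlib.Analysis.Calculus.ParametricIntegral

/-!
# The backward flow as a Gaussian integral

For `f` of growth `exp (o |z|²)` and `c > 0`, `heatFlow (-c) f z` is, up to the factor `√(4 π c)`,
the integral of `f (p + v) exp (-(p + v - z)² / (4 c))` over real `v`, whatever `p` is.
-/

set_option autoImplicit false

noncomputable section

namespace FA.DeBruijnNewman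

open Complex MeasureTheory Filter Topology Metric Real FA.DeBruijn
open scoped Nat

variable {f : ℂ → ℂ} {c : ℝ}

/-- `exp (-w² / (4 c))`. -/
def gaussKer (c : ℝ) (w : ℂ) : ℂ := cexp (-w ^ 2 / (4 * c))

theorem differentiable_gaussKer (c : ℝ) : Differentiable ℂ (gaussKer c) := by
  unfold gaussKer
  fun_prop

theorem norm_gaussKer (c : ℝ) (w : ℂ) :
    ‖gaussKer c w‖ = Real.exp (-(w.re ^ 2 - w.im ^ 2) / (4 * c)) := by
  rw [gaussKer, Complex.norm_exp,
    show (4 * (c : ℂ)) = ((4 * c : ℝ) : ℂ) by push_cast; rfl, div_ofReal_re, neg_re, pow_two,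
    mul_re]
  ring_nf

theorem gaussKer_ofReal (c v : ℝ) : gaussKer c v = (Real.exp (-(v ^ 2) / (4 * c)) : ℂ) := by
  rw [gaussKer, ofReal_exp]
  push_cast
  ring_nf

theorem exists_shift_bound (hf : HeatGrowth f) (hc : 0 < c) (z : ℂ) (P : ℝ) :
    ∃ A : ℝ, ∀ (p : ℂ) (v : ℝ), ‖p‖ ≤ P →
      ‖f (p + v) * gaussKer c (p + v - z)‖ ≤ A * Real.exp (-(1 / (16 * c)) * v ^ 2) := by
  obtain ⟨G, hG⟩ := hf.bound (1 / (32 * c)) (by positivity)
  refine ⟨Real.exp ((P + ‖z‖) ^ 2 / (4 * c) + P ^ 2 / (16 * c) + G), fun p v hp => ?_⟩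
  rw [norm_mul, norm_gaussKer, ← Real.exp_add]
  refine (mul_le_mul_of_nonneg_right (hG _) (Real.exp_pos _).le).trans ?_
  rw [← Real.exp_add]
  refine Real.exp_le_exp.2 ?_
  have h1 : ‖p + (v : ℂ)‖ ^ 2 ≤ 2 * P ^ 2 + 2 * v ^ 2 := by
    have h := (norm_add_le p (v : ℂ)).trans
      (add_le_add hp (Complex.norm_real v).le)
    rw [Real.norm_eq_abs] at h
    nlinarith [sq_abs v, sq_nonneg (P - |v|), pow_le_pow_left₀ (norm_nonneg _) h 2]
  have h2 : ‖p - z‖ ^ 2 ≤ (P + ‖z‖) ^ 2 :=
    pow_le_pow_left₀ (norm_nonneg _) ((norm_sub_le _ _).trans (by linarith)) 2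
  rw [Complex.sq_norm (p - z), Complex.normSq_apply, sub_re, sub_im] at h2
  simp only [sub_re, sub_im, add_re, add_im, ofReal_re, ofReal_im, add_zero]
  have h3 : v ^ 2 / 2 - (p.re - z.re) ^ 2 ≤ (p.re + v - z.re) ^ 2 := by
    nlinarith [sq_nonneg (v + 2 * (p.re - z.re))]
  rw [← sub_nonneg]
  have key : (0 : ℝ) ≤ (2 * P ^ 2 + 2 * v ^ 2 - ‖p + (v : ℂ)‖ ^ 2) / (32 * c) +
      ((p.re + v - z.re) ^ 2 - (v ^ 2 / 2 - (p.re - z.re) ^ 2)) / (4 * c) +
      ((P + ‖z‖) ^ 2 - ((p.re - z.re) * (p.re - z.re) + (p.im - z.im) * (p.im - z.im))) / (4 * c) :=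
    add_nonneg (add_nonneg (div_nonneg (by linarith) (by positivity))
      (div_nonneg (by linarith) (by positivity))) (div_nonneg (by linarith) (by positivity))
  refine key.trans_eq ?_
  field_simp
  ring

theorem integrable_shift (hf : HeatGrowth f) (hc : 0 < c) (z p : ℂ) :
    Integrable fun v : ℝ => f (p + v) * gaussKer c (p + v - z) := by
  obtain ⟨A, hA⟩ := exists_shift_bound hf hc z ‖p‖
  refine ((integrable_exp_neg_mul_sq (show 0 < 1 / (16 * c) by positivity)).const_mul A).mono'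
    ?_ (Eventually.of_forall fun v => hA p v le_rfl)
  have := hf.diff.continuous
  have := (differentiable_gaussKer c).continuous
  exact (by fun_prop : Continuous fun v : ℝ => f (p + v) * gaussKer c (p + v - z)
    ).aestronglyMeasurable

/-- The integral, as a function of the base point. -/
def shiftInt (c : ℝ) (f : ℂ → ℂ) (z p : ℂ) : ℂ :=
  ∫ v : ℝ, f (p + v) * gaussKer c (p + v - z)

theorem differentiable_shiftInt (hf : HeatGrowth f) (hc : 0 < c) (z : ℂ) :
    Differentiable ℂ (shiftInt c f z) := fun p => by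
  obtain ⟨h, hh⟩ : ∃ h : ℂ → ℂ, h = fun u => f u * gaussKer c (u - z) := ⟨_, rfl⟩
  have hd : Differentiable ℂ h := by
    have := hf.diff
    have := differentiable_gaussKer c
    rw [hh]
    fun_prop
  obtain ⟨A, hA⟩ := exists_shift_bound hf hc z (‖p‖ + 2)
  have hcont : Continuous fun v : ℝ => deriv h (p + v) :=
    (show Continuous (deriv h) from
      (Differentiable.continuous fun u => hd.deriv u)).comp (by fun_prop)
  refine (hasDerivAt_integral_of_dominated_loc_of_deriv_le
    (F := fun (q : ℂ) (v : ℝ) => f (q + v) * gaussKer c (q + v - z))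
    (F' := fun (q : ℂ) (v : ℝ) => deriv h (q + v))
    (bound := fun v => A * Real.exp (-(1 / (16 * c)) * v ^ 2))
    (ball_mem_nhds p one_pos)
    (Eventually.of_forall fun q => (integrable_shift hf hc z q).aestronglyMeasurable)
    (integrable_shift hf hc z p) hcont.aestronglyMeasurable ?_
    ((integrable_exp_neg_mul_sq (show 0 < 1 / (16 * c) by positivity)).const_mul A) ?_).2
    |>.differentiableAt
  · refine Eventually.of_forall fun v q hq => ?_
    refine (norm_deriv_le_of_forall_mem_sphere_norm_le one_pos hd.diffContOnCl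
      (fun u hu => ?_)).trans_eq (div_one _)
    have hu' : ‖u - v‖ ≤ ‖p‖ + 2 := by
      rw [mem_sphere_iff_norm] at hu
      rw [mem_ball, dist_eq_norm] at hq
      calc ‖u - v‖ = ‖(u - (q + v)) + (q - p) + p‖ := by ring_nf
        _ ≤ ‖u - (q + v)‖ + ‖q - p‖ + ‖p‖ := norm_add₃_le
        _ ≤ _ := by linarith
    have := hA (u - v) v hu'
    rwa [sub_add_cancel, ← show h u = f u * gaussKer c (u - z) by rw [hh]] at this
  · refine Eventually.of_forall fun v q _ => ?_
    have := (hd (q + v)).hasDerivAt.comp_add_const q (v : ℂ)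
    simpa [hh] using this

theorem shiftInt_add_real (z p : ℂ) (r : ℝ) :
    shiftInt c f z (p + r) = shiftInt c f z p := by
  rw [shiftInt, shiftInt,
    ← integral_add_left_eq_self (fun v : ℝ => f (p + v) * gaussKer c (p + v - z)) r]
  refine integral_congr_ae (Eventually.of_forall fun v => ?_)
  push_cast
  ring_nf

theorem shiftInt_eq (hf : HeatGrowth f) (hc : 0 < c) (z p q : ℂ) :
    shiftInt c f z p = shiftInt c f z q := by
  refine is_const_of_deriv_eq_zero (differentiable_shiftInt hf hc z) (fun w => ?_) p q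
  have h1 : HasDerivAt (fun u : ℂ => shiftInt c f z (w + u))
      (deriv (shiftInt c f z) (w + ((0 : ℝ) : ℂ))) ((0 : ℝ) : ℂ) :=
    (differentiable_shiftInt hf hc z _).hasDerivAt.comp_const_add w _
  have h2 := h1.comp_ofReal
  simp only [shiftInt_add_real] at h2
  simpa using (h2.unique (hasDerivAt_const (0 : ℝ) (shiftInt c f z w)))

theorem integral_pow_odd (c : ℝ) (k : ℕ) :
    ∫ v : ℝ, v ^ (2 * k + 1) * Real.exp (-(v ^ 2) / (4 * c)) = 0 := by
  have h := integral_neg_eq_self (fun v : ℝ => v ^ (2 * k + 1) * Real.exp (-(v ^ 2) / (4 * c)))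
    volume
  rw [integral_congr_ae (g := fun v : ℝ => -(v ^ (2 * k + 1) * Real.exp (-(v ^ 2) / (4 * c))))
    (Eventually.of_forall fun v => by simp [Odd.neg_pow ⟨k, rfl⟩]), integral_neg] at h
  linarith

theorem factorial_two_mul_eq (k : ℕ) :
    ((2 * k)! : ℝ) = 2 ^ k * k ! * ((2 * k - 1 : ℕ)‼ : ℝ) := by
  rcases k with _ | j
  · simp
  rw [show 2 * (j + 1) = 2 * j + 1 + 1 by ring, Nat.factorial_eq_mul_doubleFactorial,
    show 2 * j + 1 + 1 = 2 * (j + 1) by ring, Nat.doubleFactorial_two_mul,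
    show 2 * (j + 1) - 1 = 2 * j + 1 by omega]
  push_cast
  ring

theorem integral_pow_even (hc : 0 < c) (k : ℕ) :
    ∫ v : ℝ, v ^ (2 * k) * Real.exp (-(v ^ 2) / (4 * c)) =
      √(4 * π * c) * ((2 * k)! / k ! * c ^ k) := by
  calc ∫ v : ℝ, v ^ (2 * k) * Real.exp (-(v ^ 2) / (4 * c))
      = ∫ v : ℝ, (fun x : ℝ => x ^ (2 * k) * Real.exp (-(x ^ 2) / (4 * c))) |v| := by
        refine integral_congr_ae (Eventually.of_forall fun v => ?_)
        simp only [pow_mul, sq_abs]
    _ = 2 * ∫ x in Set.Ioi (0 : ℝ), x ^ (2 * k) * Real.exp (-(x ^ 2) / (4 * c)) :=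
        integral_comp_abs (f := fun x : ℝ => x ^ (2 * k) * Real.exp (-(x ^ 2) / (4 * c)))
    _ = 2 * ∫ x in Set.Ioi (0 : ℝ),
        x ^ ((2 * k : ℕ) : ℝ) * Real.exp (-(1 / (4 * c)) * x ^ (2 : ℝ)) := by
        congr 1
        refine setIntegral_congr_fun measurableSet_Ioi fun x _ => ?_
        simp only [Real.rpow_natCast, Real.rpow_two]
        congr 2
        ring
    _ = _ := by
      rw [integral_rpow_mul_exp_neg_mul_rpow two_pos
        (by linarith [(Nat.cast_nonneg (2 * k) : (0 : ℝ) ≤ ((2 * k : ℕ) : ℝ))]) (by positivity),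
        show (((2 * k : ℕ) : ℝ) + 1) / 2 = k + 1 / 2 by push_cast; ring,
        show -(((2 * k : ℕ) : ℝ) + 1) / 2 = -((k : ℝ) + 1 / 2) by push_cast; ring,
        Real.Gamma_nat_add_half, Real.rpow_neg (by positivity), one_div (4 * c),
        Real.inv_rpow (by positivity), inv_inv, Real.rpow_add (by positivity), Real.rpow_natCast,
        ← Real.sqrt_eq_rpow, factorial_two_mul_eq, show 4 * π * c = π * (4 * c) by ring,
        Real.sqrt_mul (x := π) Real.pi_pos.le, mul_pow, show (4 : ℝ) ^ k = 2 ^ k * 2 ^ k by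
          rw [← mul_pow]; norm_num]
      field_simp

/-- **The Gaussian representation.** -/
theorem integral_eq_heatFlow_neg (hf : HeatGrowth f) (hc : 0 < c) (z p : ℂ) :
    ∫ v : ℝ, f (p + v) * gaussKer c (p + v - z) = √(4 * π * c) * heatFlow (-c) f z := by
  rw [show (∫ v : ℝ, f (p + v) * gaussKer c (p + v - z)) = shiftInt c f z p from rfl,
    shiftInt_eq hf hc z p z, shiftInt]
  simp only [add_sub_cancel_left, gaussKer_ofReal]
  obtain ⟨G, hG⟩ := hf.bound (1 / (64 * c)) (by positivity)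
  obtain ⟨A, hA⟩ : ∃ A, A = Real.exp ((‖z‖ + 1) ^ 2 / (32 * c) + G) := ⟨_, rfl⟩
  obtain ⟨F, hF⟩ : ∃ F : ℕ → ℝ → ℂ, F = fun n v =>
      iteratedDeriv n f z / n ! * ((v ^ n * Real.exp (-(v ^ 2) / (4 * c)) : ℝ) : ℂ) := ⟨_, rfl⟩
  have hb : ∀ n v, ‖F n v‖ ≤ (1 / 2) ^ n * (A * Real.exp (-(1 / (8 * c)) * v ^ 2)) := by
    intro n v
    obtain ⟨R, hR⟩ : ∃ R, R = 2 * |v| + 1 := ⟨_, rfl⟩
    have hR0 : 0 < R := by rw [hR]; positivity
    have hd := norm_iteratedDeriv_le_of_forall_mem_sphere_norm_le (c := z) n hR0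
      hf.diff.diffContOnCl (C := Real.exp (1 / (64 * c) * (‖z‖ + R) ^ 2 + G)) fun w hw => by
        refine (hG w).trans (Real.exp_le_exp.2 ?_)
        have h1 : ‖w‖ ≤ ‖z‖ + R := by
          rw [mem_sphere_iff_norm] at hw
          linarith [norm_le_norm_add_norm_sub' w z]
        have := pow_le_pow_left₀ (norm_nonneg w) h1 2
        nlinarith [show (0 : ℝ) < 1 / (64 * c) by positivity]
    simp only [hF]
    rw [norm_mul, norm_div, Complex.norm_natCast, Complex.norm_real, Real.norm_eq_abs, abs_mul,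
      abs_pow, abs_of_pos (Real.exp_pos _)]
    have hq : |v| / R ≤ 1 / 2 := by rw [hR, div_le_iff₀ (by positivity)]; linarith
    calc ‖iteratedDeriv n f z‖ / n ! * (|v| ^ n * Real.exp (-(v ^ 2) / (4 * c)))
        ≤ n ! * Real.exp (1 / (64 * c) * (‖z‖ + R) ^ 2 + G) / R ^ n / n ! *
            (|v| ^ n * Real.exp (-(v ^ 2) / (4 * c))) := by gcongr
      _ = (|v| / R) ^ n * (Real.exp (1 / (64 * c) * (‖z‖ + R) ^ 2 + G) *
            Real.exp (-(v ^ 2) / (4 * c))) := by
          rw [div_pow]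
          field_simp
      _ ≤ _ := by
          rw [hA, ← Real.exp_add, ← Real.exp_add]
          refine mul_le_mul (pow_le_pow_left₀ (by positivity) hq n) (Real.exp_le_exp.2 ?_)
            (Real.exp_pos _).le (by positivity)
          rw [← sub_nonneg, hR]
          refine (show (0 : ℝ) ≤ (‖z‖ + 1 - 2 * |v|) ^ 2 / (64 * c) by positivity).trans_eq ?_
          field_simp
          ring_nf
          rw [sq_abs]
          ring
  have hsum := hasSum_integral_of_dominated_convergence
    (fun n v => (1 / 2) ^ n * (A * Real.exp (-(1 / (8 * c)) * v ^ 2))) (F := F)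
    (f := fun v : ℝ => f (z + v) * (Real.exp (-(v ^ 2) / (4 * c)) : ℂ)) (μ := volume)
    (fun n => by
      simp only [hF]
      exact (by fun_prop : Continuous fun v : ℝ => iteratedDeriv n f z / n ! *
        ((v ^ n * Real.exp (-(v ^ 2) / (4 * c)) : ℝ) : ℂ)).aestronglyMeasurable)
    (fun n => Eventually.of_forall (hb n))
    (Eventually.of_forall fun v => summable_geometric_two.mul_right _)
    (by
      simp only [tsum_mul_right]
      exact ((integrable_exp_neg_mul_sq (show 0 < 1 / (8 * c) by positivity)).const_mul A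
        ).const_mul _)
    (Eventually.of_forall fun v => by
      have := (Complex.hasSum_taylorSeries_of_entire hf.diff z (z + v)).mul_right
        (Real.exp (-(v ^ 2) / (4 * c)) : ℂ)
      refine this.congr_fun fun n => ?_
      simp only [hF, add_sub_cancel_left, smul_eq_mul]
      push_cast
      ring)
  have heven := (Function.Injective.hasSum_iff (mul_right_injective₀ (two_ne_zero' ℕ))
    (f := fun n => ∫ v, F n v) fun n hn => by
      obtain ⟨k, hk⟩ : Odd n := Nat.not_even_iff_odd.1 fun h => hn ⟨n / 2, by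
        obtain ⟨m, rfl⟩ := h
        simp only
        omega⟩
      simp only [hF]
      rw [integral_const_mul, integral_complex_ofReal, hk, integral_pow_odd, ofReal_zero,
        mul_zero]).2 hsum
  rw [heatFlow, ← tsum_mul_left]
  refine heven.tsum_eq.symm.trans (tsum_congr fun k => ?_)
  simp only [Function.comp_apply, hF]
  rw [integral_const_mul, integral_complex_ofReal, integral_pow_even hc, neg_neg]
  push_cast
  have : (((2 * k)! : ℕ) : ℂ) ≠ 0 := Nat.cast_ne_zero.2 (Nat.factorial_ne_zero _)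
  field_simp

theorem HeatGrowth.rot (hf : HeatGrowth f) : HeatGrowth fun w => f (I * w) :=
  ⟨by have := hf.diff; fun_prop, fun η hη => by
    obtain ⟨G, hG⟩ := hf.bound η hη
    exact ⟨G, fun z => by simpa using hG (I * z)⟩⟩

theorem heatFlow_neg_eq_rot (hf : HeatGrowth f) (c : ℝ) (z : ℂ) :
    heatFlow (-c) f z = heatFlow c (fun w => f (I * w)) (-I * z) := by
  refine tsum_congr fun k => ?_
  rw [iteratedDeriv_comp_const_mul (n := 2 * k) hf.diff.contDiff I]
  simp only [← mul_assoc I (-I) z, mul_neg, I_mul_I, neg_neg, one_mul, pow_mul, I_sq]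
  push_cast
  rw [neg_pow (c : ℂ) k]
  have : ((-1 : ℂ) ^ k) * (-1) ^ k = 1 := by rw [← mul_pow]; norm_num
  linear_combination (-((c : ℂ) ^ k / k ! * iteratedDeriv (2 * k) f z)) * this

theorem differentiable_heat_neg (hf : HeatGrowth f) (hc : 0 ≤ c) :
    Differentiable ℂ (heatFlow (-c) f) := by
  rw [show heatFlow (-c) f = fun z => heatFlow c (fun w => f (I * w)) (-I * z) from
    funext (heatFlow_neg_eq_rot hf c)]
  exact ((HeatGrowth.rot hf).differentiable_heat hc).comp (differentiable_id.const_mul _)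

theorem summable_heat_neg (hf : HeatGrowth f) (hc : 0 ≤ c) (z : ℂ) : Summable fun k : ℕ =>
    (((- -c) ^ k / k ! : ℝ) : ℂ) * iteratedDeriv (2 * k) f z := by
  obtain ⟨C, -, hC⟩ := hf.exists_coeff_bound hc ‖z‖
  refine Summable.of_norm_bounded (summable_geometric_two.mul_left C) fun k => ?_
  rw [norm_mul, Complex.norm_real, Real.norm_eq_abs, neg_neg, abs_div, abs_pow, abs_of_nonneg hc,
    Nat.abs_cast]
  exact hC z le_rfl k

end FA.DeBruijnNewman

end
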