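import Fermat.Agent.HardyZeros.Theta
import Mathlib.Analysis.Complex.LocallyUniformLimit
import Mathlib.Analysis.SpecialFunctions.Gamma.Basic
import Mathlib.MeasureTheory.Function.JacobianOneDim
import Mathlib.Analysis.PSeries

/-!
# Pólya's kernel `Φ`

`Φ u` is `(H'' u - H u) / 16` with `H w = e^w ϑ (i e^(4w))`, which is even; so `Φ` is even,
continuous and positive, and it decays faster than every `exp (-c u²)`.
-/

set_option autoImplicit false

noncomputable section

namespace FA.DeBruijnNewman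

open Complex Filter Topology MeasureTheory
open FA.HardyZeros (thetaRot strip isOpen_strip differentiableAt_thetaRot jacobiTheta_inv)
open scoped Real Nat

/-- `π (n + 1)²`. -/
def polyaCoef (n : ℕ) : ℝ := π * ((n : ℝ) + 1) ^ 2

/-- A term of `Φ`. -/
def polyaTerm (n : ℕ) (u : ℝ) : ℝ :=
  (2 * polyaCoef n ^ 2 * Real.exp (9 * u) - 3 * polyaCoef n * Real.exp (5 * u)) *
    Real.exp (-(polyaCoef n * Real.exp (4 * u)))

/-- **Pólya's kernel**. -/
def polyaPhi (u : ℝ) : ℝ := ∑' n : ℕ, polyaTerm n u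

theorem three_lt_polyaCoef (n : ℕ) : 3 < polyaCoef n := by
  refine Real.pi_gt_three.trans_le (le_mul_of_one_le_right Real.pi_pos.le ?_)
  exact one_le_pow₀ (by linarith [(Nat.cast_nonneg n : (0 : ℝ) ≤ n)])

theorem polyaCoef_pos (n : ℕ) : 0 < polyaCoef n := by linarith [three_lt_polyaCoef n]

/-- `e^w ϑ (i e^(4w))`. -/
def thetaLog (w : ℂ) : ℂ := thetaRot (-(4 * I) * w)

theorem thetaLog_mem_strip {w : ℂ} (hw : |w.im| < π / 8) : -(4 * I) * w ∈ strip := by
  have := abs_lt.1 hw
  constructor <;> simp <;> linarith [this.1, this.2]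

theorem thetaLog_eq (w : ℂ) : thetaLog w = cexp w * jacobiTheta (I * cexp (4 * w)) := by
  rw [thetaLog, thetaRot]
  congr 3
  · linear_combination (-w) * I_sq
  · congr 1
    linear_combination (-4 * w) * I_sq

theorem thetaRot_neg {z : ℂ} (hz : z ∈ strip) : thetaRot (-z) = thetaRot z := by
  have hre := Set.mem_Ioo.1 hz
  have h : 0 < (I * cexp (I * z)).im := by
    simpa using FA.HardyZeros.re_exp_I_mul_pos hz
  rw [thetaRot, thetaRot, jacobiTheta_inv h, ← mul_assoc (-I) I, neg_mul, I_mul_I, neg_neg, one_mul,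
    cpow_def_of_ne_zero (Complex.exp_ne_zero _), Complex.log_exp (by simp; linarith [Real.pi_pos])
      (by simp; linarith [Real.pi_pos]), ← Complex.exp_neg, ← mul_assoc, ← Complex.exp_add]
  congr 1
  · congr 1
    ring
  · congr 1
    rw [mul_neg, Complex.exp_neg, eq_div_iff (mul_ne_zero I_ne_zero (Complex.exp_ne_zero _))]
    field_simp
    exact I_sq

theorem thetaLog_neg {w : ℂ} (hw : |w.im| < π / 8) : thetaLog (-w) = thetaLog w := by
  rw [thetaLog, thetaLog, mul_neg, thetaRot_neg (thetaLog_mem_strip hw)]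

theorem isOpen_logStrip : IsOpen {w : ℂ | |w.im| < π / 8} :=
  isOpen_lt (continuous_abs.comp Complex.continuous_im) continuous_const

theorem differentiableOn_thetaLog : DifferentiableOn ℂ thetaLog {w : ℂ | |w.im| < π / 8} := by
  intro w hw
  exact ((differentiableAt_thetaRot (thetaLog_mem_strip hw)).comp w
    (f := fun w : ℂ => -(4 * I) * w) (by fun_prop)).differentiableWithinAt

/-- The second derivative. -/
def thetaLogTwo (w : ℂ) : ℂ := deriv (deriv thetaLog) w

theorem continuous_thetaLog : Continuous fun u : ℝ => thetaLog u :=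
  continuous_iff_continuousAt.2 fun u => by
    have hu : (u : ℂ) ∈ {w : ℂ | |w.im| < π / 8} := by simp [Real.pi_pos]
    exact (differentiableOn_thetaLog.differentiableAt (isOpen_logStrip.mem_nhds hu)
      ).continuousAt.comp Complex.continuous_ofReal.continuousAt

theorem continuous_thetaLogTwo : Continuous fun u : ℝ => thetaLogTwo u :=
  continuous_iff_continuousAt.2 fun u => by
    have hu : (u : ℂ) ∈ {w : ℂ | |w.im| < π / 8} := by simp [Real.pi_pos]
    exact (((differentiableOn_thetaLog.deriv isOpen_logStrip).deriv isOpen_logStrip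
      ).differentiableAt (isOpen_logStrip.mem_nhds hu)).continuousAt.comp
        Complex.continuous_ofReal.continuousAt

theorem thetaLogTwo_neg (u : ℝ) : thetaLogTwo (-(u : ℂ)) = thetaLogTwo u := by
  have hU := isOpen_logStrip
  have h1 : ∀ w : ℂ, |w.im| < π / 8 → deriv thetaLog w = -deriv thetaLog (-w) := fun w hw => by
    rw [← deriv_comp_neg]
    refine Filter.EventuallyEq.deriv_eq ?_
    filter_upwards [hU.mem_nhds hw] with v hv using (thetaLog_neg hv).symm
  have hu : |(u : ℂ).im| < π / 8 := by simp [Real.pi_pos]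
  have h2 : deriv (deriv thetaLog) (u : ℂ) = deriv (fun w => -deriv thetaLog (-w)) (u : ℂ) := by
    refine Filter.EventuallyEq.deriv_eq ?_
    filter_upwards [hU.mem_nhds hu] with v hv using h1 v hv
  rw [thetaLogTwo, thetaLogTwo, h2, deriv.fun_neg, deriv_comp_neg, neg_neg]

/-- A term of `H`, as a function of a complex variable. -/
def kerTerm (n : ℕ) (w : ℂ) : ℂ := cexp (w - (polyaCoef n : ℂ) * cexp (4 * w))

/-- Its derivative. -/
def kerTermD (n : ℕ) (w : ℂ) : ℂ := kerTerm n w * (1 - 4 * (polyaCoef n : ℂ) * cexp (4 * w))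

theorem hasDerivAt_kerTerm (n : ℕ) (w : ℂ) : HasDerivAt (kerTerm n) (kerTermD n w) w := by
  unfold kerTerm
  refine (((hasDerivAt_id' w).sub ((((hasDerivAt_id' w).const_mul 4).cexp).const_mul
    (polyaCoef n : ℂ))).cexp).congr_deriv ?_
  simp only [kerTermD, kerTerm, Pi.sub_apply]
  ring

theorem hasDerivAt_kerTermD (n : ℕ) (w : ℂ) : HasDerivAt (kerTermD n)
    (kerTerm n w * ((1 - 4 * (polyaCoef n : ℂ) * cexp (4 * w)) ^ 2 -
      16 * (polyaCoef n : ℂ) * cexp (4 * w))) w := by
  unfold kerTermD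
  refine ((hasDerivAt_kerTerm n w).mul (((((hasDerivAt_id' w).const_mul 4).cexp).const_mul
    (4 * (polyaCoef n : ℂ))).const_sub 1)).congr_deriv ?_
  simp only [kerTermD]
  ring

/-- The box of size `R`. -/
def kerBox (R : ℝ) : Set ℂ := {w : ℂ | |w.im| < π / 16 ∧ |w.re| < R}

theorem isOpen_kerBox (R : ℝ) : IsOpen (kerBox R) :=
  (isOpen_lt (continuous_abs.comp Complex.continuous_im) continuous_const).inter
    (isOpen_lt (continuous_abs.comp Complex.continuous_re) continuous_const)

theorem norm_kerTerm_le {R : ℝ} {w : ℂ} (hw : w ∈ kerBox R) (n : ℕ) :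
    ‖kerTerm n w‖ ≤ Real.exp R * Real.exp (-(polyaCoef n * (Real.exp (-(4 * R)) / 2))) ∧
      ‖1 - 4 * (polyaCoef n : ℂ) * cexp (4 * w)‖ ≤ 1 + 4 * polyaCoef n * Real.exp (4 * R) := by
  have h1 := abs_lt.1 hw.1
  have h2 := abs_lt.1 hw.2
  have ha := polyaCoef_pos n
  constructor
  · rw [kerTerm, Complex.norm_exp, ← Real.exp_add, sub_re, re_ofReal_mul, Complex.exp_re]
    refine Real.exp_le_exp.2 ?_
    have hc : 1 / 2 ≤ Real.cos (4 * w).im := by
      rw [← Real.cos_pi_div_three, ← Real.cos_abs (4 * w).im]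
      refine Real.cos_le_cos_of_nonneg_of_le_pi (abs_nonneg _) (by linarith [Real.pi_pos]) ?_
      rw [show (4 * w).im = 4 * w.im by simp, abs_mul, abs_of_pos (four_pos (α := ℝ))]
      linarith [hw.1, Real.pi_pos]
    have he : Real.exp (-(4 * R)) ≤ Real.exp (4 * w).re := Real.exp_le_exp.2 (by simp; linarith)
    have hp : Real.exp (-(4 * R)) * (1 / 2) ≤ Real.exp (4 * w).re * Real.cos (4 * w).im :=
      mul_le_mul he hc (by norm_num) (Real.exp_pos _).le
    have := mul_le_mul_of_nonneg_left hp ha.le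
    linarith
  · refine (norm_sub_le _ _).trans ?_
    rw [norm_one, norm_mul, norm_mul, Complex.norm_exp, Complex.norm_real, Real.norm_eq_abs,
      abs_of_pos ha, Complex.norm_ofNat]
    gcongr
    simp
    linarith

theorem summable_coef_mul_exp {q : ℝ} (hq : 0 < q) (k : ℕ) :
    Summable fun n : ℕ => polyaCoef n ^ k * Real.exp (-(polyaCoef n * q)) := by
  have hs : Summable fun n : ℕ =>
      π ^ k * ((((n + 1 : ℕ) : ℝ)) ^ (2 * k) * Real.exp (-((n + 1 : ℕ) : ℝ) * (π * q))) := by
    refine (((summable_nat_add_iff 1).2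
      (Real.summable_pow_mul_exp_neg_nat_mul (2 * k) (show 0 < π * q by positivity))).mul_left
      (π ^ k)).congr fun n => ?_
    ring_nf
  refine hs.of_nonneg_of_le (fun n => mul_nonneg (pow_nonneg (polyaCoef_pos n).le k)
    (Real.exp_pos _).le) fun n => ?_
  rw [polyaCoef, mul_pow, ← pow_mul, mul_assoc (π ^ k)]
  push_cast
  refine mul_le_mul_of_nonneg_left (mul_le_mul_of_nonneg_left (Real.exp_le_exp.2 ?_)
    (by positivity)) (by positivity)
  have h1 : (n : ℝ) + 1 ≤ ((n : ℝ) + 1) ^ 2 := by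
    nlinarith [(Nat.cast_nonneg n : (0 : ℝ) ≤ n)]
  nlinarith [mul_le_mul_of_nonneg_right h1 (show 0 ≤ π * q by positivity)]

theorem thetaLog_eq_series {w : ℂ} (hw : |w.im| < π / 8) :
    thetaLog w = cexp w + 2 * ∑' n, kerTerm n w := by
  have him : 0 < (I * cexp (4 * w)).im := by
    simp only [mul_im, I_re, I_im, zero_mul, one_mul, zero_add, Complex.exp_re]
    refine mul_pos (Real.exp_pos _) (Real.cos_pos_of_mem_Ioo ?_)
    have := abs_lt.1 hw
    constructor <;> simp <;> linarith [this.1, this.2]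
  have hS := ((hasSum_nat_jacobiTheta him).mul_left (cexp w)).congr_fun (g := fun n => kerTerm n w)
    fun n => by
      rw [kerTerm, polyaCoef, ← Complex.exp_add]
      congr 1
      push_cast
      linear_combination (-(π : ℂ) * ((n : ℂ) + 1) ^ 2 * cexp (4 * w)) * I_sq
  rw [hS.tsum_eq, thetaLog_eq]
  ring

theorem hasSum_polyaTerm (u : ℝ) :
    HasSum (fun n => (polyaTerm n u : ℂ)) ((thetaLogTwo u - thetaLog u) / 16) := by
  obtain ⟨R, hR⟩ : ∃ R, R = |u| + 1 := ⟨_, rfl⟩
  have hu : (u : ℂ) ∈ kerBox R := ⟨by simp [Real.pi_pos], by simp [hR]⟩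
  have hU := isOpen_kerBox R
  have hsub : ∀ {w}, w ∈ kerBox R → |w.im| < π / 8 := fun hw =>
    hw.1.trans (by linarith [Real.pi_pos])
  obtain ⟨q, hq⟩ : ∃ q, q = Real.exp (-(4 * R)) / 2 := ⟨_, rfl⟩
  have hq0 : 0 < q := hq ▸ half_pos (Real.exp_pos _)
  have hs0 := (summable_coef_mul_exp hq0 0).mul_left (Real.exp R)
  have hs1 : Summable fun n : ℕ => Real.exp R * Real.exp (-(polyaCoef n * q)) *
      (1 + 4 * polyaCoef n * Real.exp (4 * R)) := by
    refine (hs0.add ((summable_coef_mul_exp hq0 1).mul_left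
      (4 * Real.exp (4 * R) * Real.exp R))).congr fun n => ?_
    ring
  have hb0 : ∀ n, ∀ w ∈ kerBox R,
      ‖kerTerm n w‖ ≤ Real.exp R * (polyaCoef n ^ 0 * Real.exp (-(polyaCoef n * q))) :=
    fun n w hw => by
      rw [pow_zero, one_mul, hq]
      exact (norm_kerTerm_le hw n).1
  have hb1 : ∀ n, ∀ w ∈ kerBox R, ‖kerTermD n w‖ ≤ Real.exp R * Real.exp (-(polyaCoef n * q)) *
      (1 + 4 * polyaCoef n * Real.exp (4 * R)) := fun n w hw => by
    rw [kerTermD, norm_mul, hq]
    exact mul_le_mul (norm_kerTerm_le hw n).1 (norm_kerTerm_le hw n).2 (norm_nonneg _)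
      (by positivity)
  have hd0 : ∀ n, DifferentiableOn ℂ (kerTerm n) (kerBox R) := fun n w _ =>
    (hasDerivAt_kerTerm n w).differentiableAt.differentiableWithinAt
  have hd1 : ∀ n, DifferentiableOn ℂ (kerTermD n) (kerBox R) := fun n w _ =>
    (hasDerivAt_kerTermD n w).differentiableAt.differentiableWithinAt
  have hA : ∀ w ∈ kerBox R, deriv thetaLog w = cexp w + 2 * ∑' n, kerTermD n w := fun w hw => by
    rw [Filter.EventuallyEq.deriv_eq (f := fun v => cexp v + 2 * ∑' n, kerTerm n v)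
      (by filter_upwards [hU.mem_nhds hw] with v hv using thetaLog_eq_series (hsub hv))]
    have h := Complex.hasSum_deriv_of_summable_norm hs0 hd0 hU hb0 hw
    simp only [fun n => (hasDerivAt_kerTerm n w).deriv] at h
    rw [h.tsum_eq]
    have hd := (Complex.differentiableOn_tsum_of_summable_norm hs0 hd0 hU hb0).differentiableAt
      (hU.mem_nhds hw)
    exact ((Complex.hasDerivAt_exp w).add (hd.hasDerivAt.const_mul 2)).deriv
  have hB := Complex.hasSum_deriv_of_summable_norm hs1 hd1 hU hb1 hu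
  have hd := (Complex.differentiableOn_tsum_of_summable_norm hs1 hd1 hU hb1).differentiableAt
    (hU.mem_nhds hu)
  have hC : thetaLogTwo (u : ℂ) = cexp u + 2 * deriv (fun w => ∑' n, kerTermD n w) (u : ℂ) := by
    rw [thetaLogTwo, Filter.EventuallyEq.deriv_eq (f := fun v => cexp v + 2 * ∑' n, kerTermD n v)
      (by filter_upwards [hU.mem_nhds hu] with v hv using hA v hv)]
    exact ((Complex.hasDerivAt_exp _).add (hd.hasDerivAt.const_mul 2)).deriv
  simp only [fun n => (hasDerivAt_kerTermD n (u : ℂ)).deriv] at hB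
  have hS : Summable fun n => kerTerm n (u : ℂ) :=
    Summable.of_norm_bounded hs0 fun n => hb0 n _ hu
  rw [hC, thetaLog_eq_series (hsub hu)]
  have h := (hB.sub hS.hasSum).div_const 8
  rw [show (deriv (fun w => ∑' n, kerTermD n w) (u : ℂ) - ∑' n, kerTerm n (u : ℂ)) / 8 =
    (cexp u + 2 * deriv (fun w => ∑' n, kerTermD n w) (u : ℂ) -
      (cexp u + 2 * ∑' n, kerTerm n (u : ℂ))) / 16 by ring] at h
  refine h.congr_fun fun n => ?_
  simp only [polyaTerm, kerTerm, Complex.exp_sub]
  push_cast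
  rw [show (9 : ℂ) * u = u + 4 * u + 4 * u by ring, show (5 : ℂ) * u = u + 4 * u by ring,
    Complex.exp_add, Complex.exp_add, Complex.exp_neg]
  field_simp
  ring

theorem polyaPhi_eq (u : ℝ) : (polyaPhi u : ℂ) = (thetaLogTwo u - thetaLog u) / 16 := by
  rw [polyaPhi, Complex.ofReal_tsum, (hasSum_polyaTerm u).tsum_eq]

theorem summable_polyaTerm (u : ℝ) : Summable fun n => polyaTerm n u :=
  Complex.summable_ofReal.1 (hasSum_polyaTerm u).summable

theorem polyaPhi_neg (u : ℝ) : polyaPhi (-u) = polyaPhi u := by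
  apply Complex.ofReal_injective
  rw [polyaPhi_eq, polyaPhi_eq, ofReal_neg, thetaLogTwo_neg, thetaLog_neg (by simp [Real.pi_pos])]

theorem polyaPhi_abs (u : ℝ) : polyaPhi |u| = polyaPhi u := by
  rcases abs_choice u with h | h <;> rw [h]
  exact polyaPhi_neg u

theorem continuous_polyaPhi : Continuous polyaPhi := by
  have : polyaPhi = fun u : ℝ => ((thetaLogTwo u - thetaLog u) / 16).re :=
    funext fun u => by rw [← polyaPhi_eq, ofReal_re]
  rw [this]
  exact Complex.continuous_re.comp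
    ((continuous_thetaLogTwo.sub continuous_thetaLog).div_const _)

theorem polyaTerm_pos {u : ℝ} (hu : 0 ≤ u) (n : ℕ) : 0 < polyaTerm n u := by
  refine mul_pos ?_ (Real.exp_pos _)
  have ha := three_lt_polyaCoef n
  have h : Real.exp (5 * u) ≤ Real.exp (9 * u) := Real.exp_le_exp.2 (by linarith)
  nlinarith [mul_pos (mul_pos (polyaCoef_pos n) (show 0 < 2 * polyaCoef n - 3 by linarith))
    (Real.exp_pos (5 * u)),
    mul_le_mul_of_nonneg_left h (show 0 ≤ 2 * polyaCoef n ^ 2 by positivity)]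

theorem polyaPhi_pos (u : ℝ) : 0 < polyaPhi u := by
  rw [← polyaPhi_abs]
  exact (summable_polyaTerm _).tsum_pos (fun n => (polyaTerm_pos (abs_nonneg u) n).le) 0
    (polyaTerm_pos (abs_nonneg u) 0)

/-- **The decay**, faster than every Gaussian. -/
theorem exists_polyaPhi_bound (c : ℝ) : ∃ C : ℝ, ∀ u, polyaPhi u ≤ C * Real.exp (-(c * u ^ 2)) := by
  obtain ⟨K, hK⟩ : ∃ K, K = ∑' n : ℕ, 5 * (polyaCoef n ^ 2 * Real.exp (-(polyaCoef n * 1))) :=
    ⟨_, rfl⟩
  have hK0 : 0 ≤ K := hK ▸ tsum_nonneg fun n => by positivity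
  refine ⟨K * Real.exp (81 / 4 + (c + 1) ^ 2 + 1), fun u => ?_⟩
  rw [← polyaPhi_abs, ← sq_abs u, mul_assoc, ← Real.exp_add]
  generalize hv : |u| = v
  have hv0 : 0 ≤ v := hv ▸ abs_nonneg u
  have hterm : ∀ n, polyaTerm n v ≤
      5 * (polyaCoef n ^ 2 * Real.exp (-(polyaCoef n * 1))) *
        Real.exp (9 * v + 1 - Real.exp (4 * v)) := fun n => by
    have ha := three_lt_polyaCoef n
    have hE : 1 ≤ Real.exp (4 * v) := Real.one_le_exp (by linarith)
    have h1 : 2 * polyaCoef n ^ 2 * Real.exp (9 * v) - 3 * polyaCoef n * Real.exp (5 * v) ≤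
        5 * polyaCoef n ^ 2 * Real.exp (9 * v) := by
      nlinarith [mul_pos (polyaCoef_pos n) (Real.exp_pos (5 * v)),
        mul_nonneg (sq_nonneg (polyaCoef n)) (Real.exp_pos (9 * v)).le]
    refine (mul_le_mul_of_nonneg_right h1 (Real.exp_pos _).le).trans ?_
    rw [show 5 * (polyaCoef n ^ 2 * Real.exp (-(polyaCoef n * 1))) *
        Real.exp (9 * v + 1 - Real.exp (4 * v)) = 5 * polyaCoef n ^ 2 *
        (Real.exp (-(polyaCoef n * 1)) * Real.exp (9 * v + 1 - Real.exp (4 * v))) by ring,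
      ← Real.exp_add, mul_assoc (5 * polyaCoef n ^ 2), ← Real.exp_add]
    refine mul_le_mul_of_nonneg_left (Real.exp_le_exp.2 ?_) (by positivity)
    nlinarith
  have hs : Summable fun n : ℕ => 5 * (polyaCoef n ^ 2 * Real.exp (-(polyaCoef n * 1))) :=
    (summable_coef_mul_exp one_pos 2).mul_left 5
  refine ((summable_polyaTerm v).tsum_le_tsum hterm (hs.mul_right _)).trans ?_
  rw [tsum_mul_right, ← hK]
  refine mul_le_mul_of_nonneg_left (Real.exp_le_exp.2 ?_) hK0
  have hpow := Real.pow_div_factorial_le_exp (4 * v) (by linarith) 4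
  norm_num [Nat.factorial] at hpow
  nlinarith [sq_nonneg (v - 9 / 2), sq_nonneg (v ^ 2 - (c + 1) / 2)]

end FA.DeBruijnNewman

end
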