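import Mathlib.Analysis.SpecialFunctions.Gaussian.FourierTransform
import Mathlib.NumberTheory.LSeries.RiemannZeta
import Mathlib.Analysis.Complex.BorelCaratheodory
import Mathlib.Analysis.Complex.HasPrimitives
import Mathlib.Analysis.Complex.LocallyUniformLimit
import Mathlib.Analysis.Complex.Liouville
import Mathlib.Analysis.PSeries
import Mathlib.Analysis.Normed.Group.Tannery
import Fermat.Agent.DeBruijnNewman.Gamma

/-!
# The limit function and the almost periods

`gaussSeries c w = ∑ exp (-c log² n / 4) n ^ (-w)` is the Gaussian average of `ζ` along `re s = 3`;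
it has a zero. Along a sequence `T k → ∞` every `n ^ (i T k)` tends to `1`.
-/

set_option autoImplicit false

noncomputable section

namespace FA.DeBruijnNewman

open Complex Filter Topology Metric MeasureTheory

/-- The `n + 1`-st term. -/
def gaussTerm (c : ℝ) (n : ℕ) (w : ℂ) : ℂ :=
  cexp (-((c / 4 * Real.log (n + 1) ^ 2 : ℝ) : ℂ) - w * (Real.log (n + 1) : ℝ))

/-- `∑ exp (-c log² n / 4) n ^ (-w)`. -/
def gaussSeries (c : ℝ) (w : ℂ) : ℂ := ∑' n : ℕ, gaussTerm c n w

variable {c : ℝ}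

theorem log_succ_nonneg (n : ℕ) : 0 ≤ Real.log ((n : ℝ) + 1) :=
  Real.log_nonneg (by linarith [(Nat.cast_nonneg n : (0 : ℝ) ≤ n)])

theorem norm_gaussTerm (c : ℝ) (n : ℕ) (w : ℂ) : ‖gaussTerm c n w‖ =
    Real.exp (-(c / 4 * Real.log (n + 1) ^ 2) - w.re * Real.log (n + 1)) := by
  rw [gaussTerm, Complex.norm_exp]
  simp only [sub_re, neg_re, ofReal_re, mul_re, ofReal_im, mul_zero, sub_zero]

theorem norm_gaussTerm_le (hc : 0 < c) (n : ℕ) (w : ℂ) :
    ‖gaussTerm c n w‖ ≤ Real.exp ((‖w‖ + 2) ^ 2 / c) * (1 / ((n : ℝ) + 1) ^ 2) := by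
  have h2 : 1 / ((n : ℝ) + 1) ^ 2 = Real.exp (-(2 * Real.log (n + 1))) := by
    rw [Real.exp_neg, show 2 * Real.log ((n : ℝ) + 1) = Real.log (((n : ℝ) + 1) ^ 2) by
      rw [Real.log_pow]; norm_num, Real.exp_log (by positivity), one_div]
  rw [norm_gaussTerm, h2, ← Real.exp_add]
  refine Real.exp_le_exp.2 ?_
  have := mul_le_mul_of_nonneg_right (abs_le.1 (abs_re_le_norm w)).1 (log_succ_nonneg n)
  rw [← sub_nonneg]
  refine le_trans (show (0 : ℝ) ≤ (c / 2 * Real.log (n + 1) - (‖w‖ + 2)) ^ 2 / c +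
    (w.re * Real.log (n + 1) - -‖w‖ * Real.log (n + 1)) from
      add_nonneg (by positivity) (by linarith)) (le_of_eq ?_)
  field_simp
  ring

theorem summable_sq_succ : Summable fun n : ℕ => 1 / ((n : ℝ) + 1) ^ 2 := by
  simpa using (summable_nat_add_iff (f := fun n : ℕ => 1 / (n : ℝ) ^ 2) 1).2
    (Real.summable_one_div_nat_pow.2 one_lt_two)

theorem summable_gaussTerm (hc : 0 < c) (w : ℂ) : Summable fun n => gaussTerm c n w :=
  Summable.of_norm_bounded (summable_sq_succ.mul_left _) fun n => norm_gaussTerm_le hc n w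

theorem norm_gaussSeries_le (hc : 0 < c) (w : ℂ) :
    ‖gaussSeries c w‖ ≤ Real.exp ((‖w‖ + 2) ^ 2 / c) * ∑' n : ℕ, 1 / ((n : ℝ) + 1) ^ 2 := by
  rw [← tsum_mul_left]
  exact tsum_of_norm_bounded (summable_sq_succ.mul_left _).hasSum fun n => norm_gaussTerm_le hc n w

theorem differentiable_gaussSeries (hc : 0 < c) : Differentiable ℂ (gaussSeries c) := fun w => by
  refine (Complex.differentiableOn_tsum_of_summable_norm
    (summable_sq_succ.mul_left (Real.exp ((‖w‖ + 1 + 2) ^ 2 / c)))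
    (fun n => ?_) isOpen_ball fun n u hu => ?_).differentiableAt
      (isOpen_ball.mem_nhds (mem_ball_zero_iff.2 (lt_add_one ‖w‖)))
  · unfold gaussTerm
    fun_prop
  · refine (norm_gaussTerm_le hc n u).trans ?_
    have := (mem_ball_zero_iff.1 hu).le
    gcongr

theorem norm_gaussSeries_sub_one (hc : 0 < c) {w : ℂ} (hw : 0 ≤ w.re) :
    ‖gaussSeries c w - 1‖ ≤
      Real.exp (-(w.re * Real.log 2)) *
        (Real.exp (2 ^ 2 / c) * ∑' n : ℕ, 1 / ((n : ℝ) + 1) ^ 2) := by
  rw [gaussSeries, (summable_gaussTerm hc w).tsum_eq_zero_add,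
    show gaussTerm c 0 w = 1 by simp [gaussTerm], add_sub_cancel_left, ← tsum_mul_left,
    ← tsum_mul_left]
  have hb : ∀ n : ℕ, ‖gaussTerm c (n + 1) w‖ ≤ Real.exp (-(w.re * Real.log 2)) *
      (Real.exp (2 ^ 2 / c) * (1 / (((n + 1 : ℕ) : ℝ) + 1) ^ 2)) := fun n => by
    have h0 := norm_gaussTerm_le hc (n + 1) 0
    rw [norm_gaussTerm, norm_zero, zero_add, zero_re, zero_mul, sub_zero] at h0
    rw [norm_gaussTerm, sub_eq_add_neg, Real.exp_add, mul_comm]
    refine mul_le_mul (Real.exp_le_exp.2 (neg_le_neg (mul_le_mul_of_nonneg_left ?_ hw))) h0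
      (Real.exp_pos _).le (Real.exp_pos _).le
    refine Real.log_le_log two_pos ?_
    push_cast
    linarith [(Nat.cast_nonneg n : (0 : ℝ) ≤ n)]
  have hs : Summable fun n : ℕ => Real.exp (-(w.re * Real.log 2)) *
      (Real.exp (2 ^ 2 / c) * (1 / ((n : ℝ) + 1) ^ 2)) :=
    (summable_sq_succ.mul_left _).mul_left _
  refine (tsum_of_norm_bounded ((summable_nat_add_iff 1).2 hs).hasSum hb).trans ?_
  rw [hs.tsum_eq_zero_add]
  exact le_add_of_nonneg_left (by positivity)

theorem gaussSeries_zero_ne_one (hc : 0 < c) : gaussSeries c 0 ≠ 1 := fun h => by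
  have hs : Summable fun n : ℕ => Real.exp (-(c / 4 * Real.log (n + 1) ^ 2)) :=
    (summable_gaussTerm hc 0).norm.congr fun n => by simp [norm_gaussTerm]
  rw [gaussSeries, show (fun n : ℕ => gaussTerm c n 0) =
    fun n : ℕ => ((Real.exp (-(c / 4 * Real.log (n + 1) ^ 2)) : ℝ) : ℂ) from
      funext fun n => by simp [gaussTerm], ← Complex.ofReal_tsum, ofReal_eq_one,
    hs.tsum_eq_zero_add] at h
  simp only [Nat.cast_zero, zero_add, Real.log_one] at h
  norm_num at h
  refine absurd ?_ (((summable_nat_add_iff 1).2 hs).tsum_pos (fun n => (Real.exp_pos _).le) 0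
    (Real.exp_pos _)).ne'
  exact_mod_cast h

theorem exists_gaussSeries_zero (hc : 0 < c) : ∃ w, gaussSeries c w = 0 := by
  by_contra hno
  push Not at hno
  obtain ⟨f, hfd⟩ : ∃ f, f = gaussSeries c := ⟨_, rfl⟩
  rw [← hfd] at hno
  have hd : Differentiable ℂ f := hfd ▸ differentiable_gaussSeries hc
  obtain ⟨q, hq⟩ : ∃ q : ℂ → ℂ, q = fun z => deriv f z / f z := ⟨_, rfl⟩
  have hqd : Differentiable ℂ q := hq ▸ (fun z => (hd.deriv z).div (hd z) (hno z))
  obtain ⟨g₀, hg₀⟩ := hqd.isExactOn_univ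
  obtain ⟨g, hg⟩ : ∃ g : ℂ → ℂ, g = fun z => g₀ z - g₀ 0 := ⟨_, rfl⟩
  have hgd : ∀ z, HasDerivAt g (q z) z := fun z => hg ▸ (hg₀ z (Set.mem_univ z)).sub_const _
  have hgdiff : Differentiable ℂ g := fun z => (hgd z).differentiableAt
  have hfg : ∀ z, f z = f 0 * cexp (g z) := fun z => by
    have hd0 : ∀ w, HasDerivAt (fun w => f w * cexp (-g w)) 0 w := fun w => by
      refine ((hd w).hasDerivAt.mul (hgd w).neg.cexp).congr_deriv ?_
      simp only [hq, Pi.neg_apply]
      have := hno w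
      field_simp
      ring
    have := is_const_of_deriv_eq_zero (fun w => (hd0 w).differentiableAt)
      (fun w => (hd0 w).deriv) z 0
    simp only [hg, sub_self, neg_zero, Complex.exp_zero, mul_one] at this
    rw [← this, mul_assoc, ← Complex.exp_add, hg]
    simp
  obtain ⟨S, hS⟩ : ∃ S, S = ∑' n : ℕ, 1 / ((n : ℝ) + 1) ^ 2 := ⟨_, rfl⟩
  obtain ⟨A, hA⟩ : ∃ A, A = |Real.log (S / ‖f 0‖)| + 1 := ⟨_, rfl⟩
  have hA0 : 0 < A := hA ▸ add_pos_of_nonneg_of_pos (abs_nonneg _) one_pos
  have hre : ∀ z, (g z).re ≤ A + (‖z‖ + 2) ^ 2 / c := fun z => by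
    have hS0 : 0 < S := hS ▸ summable_sq_succ.tsum_pos (fun n => by positivity) 0 (by norm_num)
    have h0 : 0 < ‖f 0‖ := norm_pos_iff.2 (hno 0)
    have h := norm_gaussSeries_le hc z
    rw [← hfd, ← hS, hfg, norm_mul, Complex.norm_exp, mul_comm, ← le_div_iff₀ h0, mul_div_assoc,
      ← Real.exp_log (div_pos hS0 h0), ← Real.exp_add, Real.exp_le_exp] at h
    rw [hA]
    linarith [le_abs_self (Real.log (S / ‖f 0‖))]
  have hnorm : ∀ z, ‖g z‖ ≤ 2 * A + 32 / c * (‖z‖ + 1) ^ 2 := fun z => by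
    have hn := norm_nonneg z
    have hM : 0 < A + (2 * ‖z‖ + 3) ^ 2 / c := by positivity
    have h := borelCaratheodory_zero (f := g) (R := 2 * ‖z‖ + 1) hM hgdiff.differentiableOn
      (fun w hw => (hre w).trans (by
        have := (mem_ball_zero_iff.1 hw).le
        refine add_le_add le_rfl (div_le_div_of_nonneg_right ?_ hc.le)
        exact pow_le_pow_left₀ (by positivity) (by linarith) 2)) (by positivity)
      (z := z) (mem_ball_zero_iff.2 (by linarith)) (by simp [hg])
    refine h.trans (le_trans (b := 2 * (A + (2 * ‖z‖ + 3) ^ 2 / c)) ?_ ?_)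
    · rw [div_le_iff₀ (by linarith)]
      exact mul_le_mul_of_nonneg_left (by linarith) (by linarith)
    · have : (2 * ‖z‖ + 3) ^ 2 / c ≤ 16 / c * (‖z‖ + 1) ^ 2 := by
        rw [div_mul_eq_mul_div]
        refine div_le_div_of_nonneg_right ?_ hc.le
        nlinarith
      rw [show 32 / c * (‖z‖ + 1) ^ 2 = 2 * (16 / c * (‖z‖ + 1) ^ 2) by ring]
      linarith
  have hg2 : ∀ z, ‖deriv q z‖ ≤ 4 * A + 256 / c := fun z => by
    have e : deriv q z = iteratedDeriv 2 g z := by
      rw [iteratedDeriv_succ, iteratedDeriv_one]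
      congr 1
      exact (funext fun w => (hgd w).deriv).symm
    rw [e]
    have hn := norm_nonneg z
    refine (norm_iteratedDeriv_le_of_forall_mem_sphere_norm_le 2 (c := z) (R := ‖z‖ + 1)
      (by positivity) hgdiff.diffContOnCl
      (C := (2 * A + 128 / c) * (‖z‖ + 1) ^ 2) fun w hw => ?_).trans (le_of_eq ?_)
    · rw [mem_sphere_iff_norm] at hw
      have hw' : ‖w‖ + 1 ≤ 2 * (‖z‖ + 1) := by linarith [norm_le_norm_add_norm_sub' w z]
      refine (hnorm w).trans ?_
      have h1 : (1 : ℝ) ≤ (‖z‖ + 1) ^ 2 := one_le_pow₀ (by linarith)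
      have h2 := mul_le_mul_of_nonneg_left (pow_le_pow_left₀ (by positivity) hw' 2)
        (show (0 : ℝ) ≤ 32 / c by positivity)
      rw [mul_pow, show 32 / c * (2 ^ 2 * (‖z‖ + 1) ^ 2) = 128 / c * (‖z‖ + 1) ^ 2 by ring] at h2
      nlinarith
    · norm_num
      field_simp
      ring
  have hconst : ∀ z, deriv q z = deriv q 0 := fun z =>
    (show Differentiable ℂ (deriv q) from fun u => hqd.deriv u).apply_eq_apply_of_bounded
      (isBounded_iff_forall_norm_le.2 ⟨_, Set.forall_mem_range.2 hg2⟩) z 0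
  have hlin : ∀ z, q z = q 0 + deriv q 0 * z := fun z => by
    have hd0 : ∀ w, HasDerivAt (fun w => q w - deriv q 0 * w) 0 w := fun w => by
      refine ((hqd w).hasDerivAt.sub ((hasDerivAt_id' w).const_mul _)).congr_deriv ?_
      rw [mul_one, hconst, sub_self]
    have := is_const_of_deriv_eq_zero (fun w => (hd0 w).differentiableAt)
      (fun w => (hd0 w).deriv) z 0
    simp only [mul_zero, sub_zero] at this
    linear_combination this
  obtain ⟨K, hK⟩ : ∃ K, K = Real.exp (2 ^ 2 / c) * S := ⟨_, rfl⟩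
  have hexp : ∀ a : ℝ, Tendsto (fun x : ℝ => Real.exp (-((x + a) * Real.log 2)) * K) atTop (𝓝 0) :=
    fun a => by
      simpa using (Real.tendsto_exp_neg_atTop_nhds_zero.comp
        ((tendsto_atTop_add_const_right _ a tendsto_id).atTop_mul_const
          (Real.log_pos one_lt_two))).mul_const K
  have hone : Tendsto (fun x : ℝ => f x) atTop (𝓝 1) := by
    rw [tendsto_iff_norm_sub_tendsto_zero]
    refine squeeze_zero' (Eventually.of_forall fun x => norm_nonneg _)
      ((eventually_ge_atTop 0).mono fun x hx => ?_) (hexp 0)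
    have := norm_gaussSeries_sub_one hc (w := (x : ℂ)) (by simpa using hx)
    rw [← hfd, ← hS, ← hK] at this
    simpa using this
  have hder : Tendsto (fun x : ℝ => deriv f x) atTop (𝓝 0) := by
    rw [tendsto_zero_iff_norm_tendsto_zero]
    refine squeeze_zero' (Eventually.of_forall fun x => norm_nonneg _)
      ((eventually_ge_atTop 1).mono fun x hx => ?_) (hexp (-1))
    rw [← deriv_sub_const (f := f) (x := (x : ℂ)) (1 : ℂ)]
    refine (Complex.norm_deriv_le_of_forall_mem_sphere_norm_le one_pos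
      (hd.sub_const 1).diffContOnCl fun w hw => ?_).trans_eq (div_one _)
    rw [mem_sphere_iff_norm] at hw
    have hw' := (abs_le.1 ((abs_re_le_norm (w - x)).trans hw.le)).1
    rw [sub_re, ofReal_re] at hw'
    have := norm_gaussSeries_sub_one hc (w := w) (by linarith)
    rw [← hfd, ← hS, ← hK] at this
    refine this.trans ?_
    rw [hK, hS]
    gcongr
    linarith
  have hq0 : Tendsto (fun x : ℝ => q x) atTop (𝓝 0) := by
    have := hder.div hone one_ne_zero
    rw [zero_div] at this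
    exact this.congr fun x => by simp [hq]
  have hb : deriv q 0 = 0 := by
    have h1 := (hq0.comp (tendsto_atTop_add_const_right _ (1 : ℝ) tendsto_id)).sub hq0
    rw [sub_zero] at h1
    refine (tendsto_nhds_unique (h1.congr (f₂ := fun _ => deriv q 0) fun x => ?_)
      tendsto_const_nhds).symm
    simp only [Function.comp_apply, id_eq]
    rw [hlin ((x + 1 : ℝ) : ℂ), hlin (x : ℂ)]
    push_cast
    ring
  have hqz : ∀ z, q z = 0 := fun z => by
    rw [hlin, hb, zero_mul, add_zero]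
    refine tendsto_nhds_unique (tendsto_const_nhds (f := (atTop : Filter ℝ)))
      (hq0.congr fun x => ?_)
    rw [hlin, hb, zero_mul, add_zero]
  have hf0 : ∀ z, f z = f 0 := fun z =>
    is_const_of_deriv_eq_zero hd (fun w => by
      have := hqz w
      rw [hq] at this
      simpa [hno w] using this) z 0
  refine gaussSeries_zero_ne_one hc ?_
  rw [← hfd]
  exact tendsto_nhds_unique (tendsto_const_nhds.congr fun x : ℝ => (hf0 x).symm) hone

/-- The Gaussian of the line `re s = 3` about `w`. -/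
def lineKer (c : ℝ) (w : ℂ) (y : ℝ) : ℂ := cexp ((linePt y - w) ^ 2 / c)

/-- Its bound, uniform in `‖w‖ ≤ R`. -/
def kerBound (c R y : ℝ) : ℝ := Real.exp (((3 + R) ^ 2 - y ^ 2 + 2 * R * |y|) / c)

theorem continuous_lineKer (c : ℝ) (w : ℂ) : Continuous (lineKer c w) := by
  unfold lineKer linePt
  fun_prop

theorem norm_lineKer_le (hc : 0 < c) {w : ℂ} {R : ℝ} (hw : ‖w‖ ≤ R) (y : ℝ) :
    ‖lineKer c w y‖ ≤ kerBound c R y := by
  rw [lineKer, kerBound, Complex.norm_exp, div_ofReal_re, pow_two (linePt y - w), mul_re, sub_re,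
    sub_im, linePt_re, linePt_im]
  refine Real.exp_le_exp.2 (div_le_div_of_nonneg_right ?_ hc.le)
  have h1 := abs_le.1 ((abs_re_le_norm w).trans hw)
  have h2 := abs_le.1 ((abs_im_le_norm w).trans hw)
  have h3 : y * w.im ≤ R * |y| := by
    refine (le_abs_self _).trans ?_
    rw [abs_mul, mul_comm]
    exact mul_le_mul_of_nonneg_right (abs_le.2 h2) (abs_nonneg _)
  have h4 : (3 - w.re) ^ 2 ≤ (3 + R) ^ 2 := sq_le_sq' (by linarith) (by linarith)
  linarith [sq_nonneg w.im, pow_two (3 - w.re),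
    show (y - w.im) * (y - w.im) = y ^ 2 - 2 * (y * w.im) + w.im ^ 2 by ring]

theorem integrable_exp_abs_mul_kerBound (hc : 0 < c) (a R : ℝ) :
    Integrable fun y : ℝ => Real.exp (a * |y|) * kerBound c R y := by
  obtain ⟨B, hB⟩ : ∃ B, B = (3 + R) ^ 2 / c + c / 2 * (a + 2 * R / c) ^ 2 := ⟨_, rfl⟩
  refine ((integrable_exp_neg_mul_sq (show 0 < 1 / (2 * c) by positivity)).const_mul
    (Real.exp B)).mono' (by unfold kerBound; exact Continuous.aestronglyMeasurable (by fun_prop))
    (Eventually.of_forall fun y => ?_)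
  rw [kerBound, ← Real.exp_add, ← Real.exp_add, Real.norm_of_nonneg (Real.exp_pos _).le, hB]
  refine Real.exp_le_exp.2 ?_
  rw [← sub_nonneg]
  refine (show (0 : ℝ) ≤ (|y| - c * (a + 2 * R / c)) ^ 2 / (2 * c) by positivity).trans_eq ?_
  rw [← sq_abs y]
  field_simp
  ring

theorem hasSum_zeta_linePt (v : ℝ) :
    HasSum (fun n : ℕ => cexp (-linePt v * (Real.log (n + 1) : ℝ))) (riemannZeta (linePt v)) := by
  have h3 : (1 : ℝ) < (linePt v).re := by rw [linePt_re]; norm_num
  rw [zeta_eq_tsum_one_div_nat_add_one_cpow h3]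
  have e : ∀ n : ℕ, 1 / ((n : ℂ) + 1) ^ linePt v = cexp (-linePt v * (Real.log (n + 1) : ℝ)) :=
    fun n => by
      rw [show ((n : ℂ) + 1) = (((n : ℝ) + 1 : ℝ) : ℂ) by push_cast; rfl,
        cpow_def_of_ne_zero (ofReal_ne_zero.2 (by positivity)),
        ← Complex.ofReal_log (by positivity), one_div, ← Complex.exp_neg, neg_mul, mul_comm]
  simp only [e]
  refine Summable.hasSum (Summable.of_norm_bounded summable_sq_succ fun n => ?_)
  rw [Complex.norm_exp, one_div, ← Real.exp_log (show (0 : ℝ) < ((n : ℝ) + 1) ^ 2 by positivity),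
    ← Real.exp_neg]
  refine Real.exp_le_exp.2 ?_
  simp [linePt_re, linePt_im, Real.log_pow]
  nlinarith [log_succ_nonneg n]

theorem norm_zeta_term_le (n : ℕ) (v : ℝ) :
    ‖cexp (-linePt v * (Real.log (n + 1) : ℝ))‖ ≤ 1 / ((n : ℝ) + 1) ^ 2 := by
  rw [Complex.norm_exp, one_div, ← Real.exp_log (show (0 : ℝ) < ((n : ℝ) + 1) ^ 2 by positivity),
    ← Real.exp_neg]
  refine Real.exp_le_exp.2 ?_
  simp [linePt_re, linePt_im, Real.log_pow]
  nlinarith [log_succ_nonneg n]

theorem norm_zeta_linePt_le (v : ℝ) :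
    ‖riemannZeta (linePt v)‖ ≤ ∑' n : ℕ, 1 / ((n : ℝ) + 1) ^ 2 := by
  rw [← (hasSum_zeta_linePt v).tsum_eq]
  exact tsum_of_norm_bounded summable_sq_succ.hasSum fun n => norm_zeta_term_le n v

theorem continuous_zeta_linePt : Continuous fun v : ℝ => riemannZeta (linePt v) :=
  continuous_iff_continuousAt.2 fun v => (differentiableAt_riemannZeta (linePt_ne v).2.2
    ).continuousAt.comp (hasDerivAt_linePt v).continuousAt

/-- **The average of `ζ`.** -/
theorem integral_zeta_lineKer (hc : 0 < c) (w : ℂ) :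
    ∫ y : ℝ, riemannZeta (linePt y) * lineKer c w y =
      ((Real.pi : ℂ) * c) ^ (1 / 2 : ℂ) * gaussSeries c w := by
  have hc' : (c : ℂ) ≠ 0 := ofReal_ne_zero.2 hc.ne'
  have h := hasSum_integral_of_dominated_convergence (μ := volume)
    (F := fun (n : ℕ) (y : ℝ) => cexp (-linePt y * (Real.log (n + 1) : ℝ)) * lineKer c w y)
    (f := fun y : ℝ => riemannZeta (linePt y) * lineKer c w y)
    (fun n y => 1 / ((n : ℝ) + 1) ^ 2 * kerBound c ‖w‖ y)
    (fun n => Continuous.aestronglyMeasurable (by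
      have := continuous_lineKer c w
      unfold linePt
      fun_prop))
    (fun n => Eventually.of_forall fun y => by
      rw [norm_mul]
      exact mul_le_mul (norm_zeta_term_le n y) (norm_lineKer_le hc le_rfl y) (norm_nonneg _)
        (by positivity))
    (Eventually.of_forall fun y => summable_sq_succ.mul_right _)
    (by
      simp only [tsum_mul_right]
      simpa using (integrable_exp_abs_mul_kerBound hc 0 ‖w‖).const_mul _)
    (Eventually.of_forall fun y => (hasSum_zeta_linePt y).mul_right _)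
  rw [← h.tsum_eq, gaussSeries, ← tsum_mul_left]
  refine tsum_congr fun n => ?_
  obtain ⟨l, hl⟩ : ∃ l : ℂ, l = ((Real.log (n + 1) : ℝ) : ℂ) := ⟨_, rfl⟩
  rw [← hl, integral_congr_ae (g := fun y : ℝ => cexp ((-1 / c : ℂ) * (y : ℂ) ^ 2 +
      (2 * I * (3 - w) / c - I * l) * y + ((3 - w) ^ 2 / c - 3 * l)))
    (Eventually.of_forall fun y => by
      simp only [lineKer, linePt, ← Complex.exp_add]
      congr 1
      field_simp
      linear_combination ((y : ℂ) ^ 2) * I_sq),
    integral_cexp_quadratic (by simp [neg_div]; exact hc)]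
  rw [show (Real.pi : ℂ) / -(-1 / (c : ℂ)) = Real.pi * c by field_simp, gaussTerm, ← hl]
  congr 2
  rw [ofReal_mul, ofReal_pow, ← hl]
  push_cast
  field_simp
  linear_combination (2 * (3 - w) - c * l) ^ 2 * I_sq

/-- **Almost periods.** -/
theorem exists_periods : ∃ T : ℕ → ℝ, Tendsto T atTop atTop ∧
    ∀ n : ℕ, Tendsto (fun k => cexp (I * T k * (Real.log (n + 1) : ℝ))) atTop (𝓝 1) := by
  obtain ⟨x, hx⟩ : ∃ x : ℕ → ℕ → ℂ, x = fun (k n : ℕ) =>
      cexp ((((k : ℝ) ^ 2 * Real.log (n + 1) : ℝ) : ℂ) * I) := ⟨_, rfl⟩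
  obtain ⟨a, ha, φ, hφ, hlim⟩ := (isCompact_univ_pi fun _ : ℕ =>
    isCompact_sphere (0 : ℂ) 1).tendsto_subseq (x := x) fun k n _ => by
      rw [hx, mem_sphere_zero_iff_norm, norm_exp_ofReal_mul_I]
  refine ⟨fun k => (φ (k + 1) : ℝ) ^ 2 - (φ k : ℝ) ^ 2, ?_, fun n => ?_⟩
  · refine tendsto_atTop_mono (f := fun k : ℕ => (k : ℝ)) (fun k => ?_) tendsto_natCast_atTop_atTop
    have h1 : (φ k : ℝ) + 1 ≤ φ (k + 1) := by exact_mod_cast hφ (Nat.lt_succ_self k)
    have h2 : (k : ℝ) ≤ φ k := Nat.cast_le.2 hφ.le_apply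
    nlinarith [(Nat.cast_nonneg k : (0 : ℝ) ≤ k)]
  · have h := tendsto_pi_nhds.1 hlim n
    have ha0 : a n ≠ 0 := fun e => by simpa [e] using ha n trivial
    have h' := (h.comp (tendsto_add_atTop_nat 1)).div h ha0
    rw [div_self ha0] at h'
    refine h'.congr fun k => ?_
    simp only [Pi.div_apply, Function.comp_apply, hx, ← Complex.exp_sub]
    push_cast
    ring_nf

theorem tendsto_zeta_shift {T : ℕ → ℝ}
    (hT : ∀ n : ℕ, Tendsto (fun k => cexp (I * T k * (Real.log (n + 1) : ℝ))) atTop (𝓝 1)) (y : ℝ) :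
    Tendsto (fun k => riemannZeta (linePt (T k + y))) atTop (𝓝 (riemannZeta (linePt y))) := by
  simp only [← fun v => (hasSum_zeta_linePt v).tsum_eq]
  refine tendsto_tsum_of_dominated_convergence summable_sq_succ (fun n => ?_)
    (Eventually.of_forall fun k n => norm_zeta_term_le n _)
  have := ((hT n).inv₀ one_ne_zero).mul_const (cexp (-linePt y * (Real.log (n + 1) : ℝ)))
  rw [inv_one, one_mul] at this
  refine this.congr fun k => ?_
  rw [← Complex.exp_neg, ← Complex.exp_add, linePt, linePt]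
  push_cast
  ring_nf

end FA.DeBruijnNewman

end
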