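import Fermat.Agent.DeBruijn.Xi
import Fermat.Agent.DeBruijnNewman.Gauss
import Fermat.Agent.DeBruijnNewman.Series

/-!
# Newman's conjecture

Near `s = w + iT + c a / 2` the flow at time `-c` is, up to a factor without zeros, the average of
`ζ (3 + iT + iy)`; along almost periods it tends to `gaussSeries c`, whose zero therefore gives
zeros of the flow with imaginary part tending to infinity.
-/

set_option autoImplicit false

noncomputable section

namespace FA.DeBruijnNewman

open Complex Filter Topology Metric MeasureTheory Real FA.DeBruijn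

variable {c : ℝ}

/-- The point `z` of `s = w + iT + c a / 2`. -/
def flowPt (c T : ℝ) (w : ℂ) : ℂ :=
  -(2 * I) * (w + (T : ℂ) * I + (c : ℂ) / 2 * xiGammaLog (linePt T) - 1 / 2)

/-- The factor without zeros. -/
def flowNorm (c T : ℝ) (w : ℂ) : ℂ :=
  xiGamma (linePt T) * cexp ((c : ℂ) * xiGammaLog (linePt T) ^ 2 / 4 +
    xiGammaLog (linePt T) * w - 3 * xiGammaLog (linePt T))

/-- The normalised flow. -/
def flowApprox (c T : ℝ) (w : ℂ) : ℂ :=
  4 * (√(4 * π * c) : ℂ) * heatFlow (-c) xiWave (flowPt c T w) / flowNorm c T w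

theorem flowNorm_ne_zero (c T : ℝ) (w : ℂ) : flowNorm c T w ≠ 0 :=
  mul_ne_zero (xiGamma_ne_zero T) (Complex.exp_ne_zero _)

theorem differentiable_flowApprox (hc : 0 ≤ c) (T : ℝ) : Differentiable ℂ (flowApprox c T) := by
  have := differentiable_heat_neg heatGrowth_xiWave hc
  unfold flowApprox
  refine Differentiable.div ?_ ?_ (flowNorm_ne_zero c T)
  · unfold flowPt
    fun_prop
  · unfold flowNorm
    fun_prop

theorem flowApprox_eq (hc : 0 < c) (T : ℝ) (w : ℂ) : flowApprox c T w =
    ∫ y : ℝ, gammaRatio T y * riemannZeta (linePt (T + y)) * lineKer c w y := by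
  have hc' : (c : ℂ) ≠ 0 := ofReal_ne_zero.2 hc.ne'
  obtain ⟨g, hg⟩ : ∃ g : ℝ → ℂ, g = fun v : ℝ =>
      xiWave (-5 * I + v) * gaussKer c (-5 * I + v - flowPt c T w) := ⟨_, rfl⟩
  have h1 : ∫ v, g v = (√(4 * π * c) : ℂ) * heatFlow (-c) xiWave (flowPt c T w) := by
    rw [hg]
    exact integral_eq_heatFlow_neg heatGrowth_xiWave hc _ _
  have h2 : ∫ v, g v = 2 * ∫ y, g (2 * (T + y)) := by
    rw [integral_add_left_eq_self (fun y => g (2 * y)) T, Measure.integral_comp_mul_left g 2]
    simp
  have h3 : ∀ y : ℝ, g (2 * (T + y)) = flowNorm c T w / 8 *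
      (gammaRatio T y * riemannZeta (linePt (T + y)) * lineKer c w y) := fun y => by
    obtain ⟨u, hu⟩ : ∃ u : ℝ, u = T + y := ⟨_, rfl⟩
    have e1 : xiWave (-5 * I + ((2 * u : ℝ) : ℂ)) = FA.RiemannMangoldt.xiFn (linePt u) / 8 := by
      rw [xiWave]
      congr 2
      rw [linePt]
      push_cast
      linear_combination (-5 / 2 : ℂ) * I_sq
    simp only [hg, ← hu]
    rw [e1, xiFn_linePt, gaussKer, gammaRatio, flowNorm, lineKer, ← hu]
    have hG := xiGamma_ne_zero T
    have key : cexp (-(-5 * I + ((2 * u : ℝ) : ℂ) - flowPt c T w) ^ 2 / (4 * c)) =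
        cexp (↑c * xiGammaLog (linePt T) ^ 2 / 4 + xiGammaLog (linePt T) * w -
          3 * xiGammaLog (linePt T)) * (cexp (-(I * xiGammaLog (linePt T) * y)) *
          cexp ((linePt y - w) ^ 2 / c)) := by
      rw [← Complex.exp_add, ← Complex.exp_add, flowPt, linePt, linePt, hu]
      generalize xiGammaLog (3 + (T : ℂ) * I) = a
      congr 1
      have e : -5 * I + ((2 * (T + y) : ℝ) : ℂ) -
          -(2 * I) * (w + (T : ℂ) * I + (c : ℂ) / 2 * a - 1 / 2) =
          2 * I * (w - 3 - (y : ℂ) * I + (c : ℂ) / 2 * a) := by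
        push_cast
        linear_combination (2 * (T : ℂ) + 2 * (y : ℂ)) * I_sq
      rw [e, mul_pow, mul_pow, I_sq]
      field_simp
      ring
    rw [key]
    field_simp
  rw [h2, integral_congr_ae (Eventually.of_forall h3), integral_const_mul] at h1
  rw [flowApprox, mul_assoc, ← h1]
  have := flowNorm_ne_zero c T w
  field_simp
  ring

theorem tendsto_flowApprox (hc : 0 < c) {T : ℕ → ℝ} (hT : Tendsto T atTop atTop)
    (hT1 : ∀ n : ℕ, Tendsto (fun k => cexp (I * T k * (Real.log (n + 1) : ℝ))) atTop (𝓝 1))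
    (R ε : ℝ) (hε : 0 < ε) : ∀ᶠ k in atTop, ∀ w : ℂ, ‖w‖ ≤ R →
      ‖flowApprox c (T k) w - ((π : ℂ) * c) ^ (1 / 2 : ℂ) * gaussSeries c w‖ < ε := by
  obtain ⟨S, hS⟩ : ∃ S, S = ∑' n : ℕ, 1 / ((n : ℝ) + 1) ^ 2 := ⟨_, rfl⟩
  have hS0 : 0 ≤ S := hS ▸ tsum_nonneg fun n => by positivity
  obtain ⟨d, hd⟩ : ∃ d : ℕ → ℝ → ℝ, d = fun k y =>
      ‖gammaRatio (T k) y * riemannZeta (linePt (T k + y)) - riemannZeta (linePt y)‖ *
        kerBound c R y := ⟨_, rfl⟩
  have hk0 : ∀ y, 0 ≤ kerBound c R y := fun y => (Real.exp_pos _).le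
  have hcont : ∀ k, Continuous fun y : ℝ =>
      gammaRatio (T k) y * riemannZeta (linePt (T k + y)) := fun k =>
    (continuous_gammaRatio _).mul (continuous_zeta_linePt.comp (by fun_prop))
  have hb : ∀ k y, ‖gammaRatio (T k) y * riemannZeta (linePt (T k + y))‖ ≤
      Real.exp (24 * |y|) * S := fun k y => by
    rw [norm_mul, hS]
    exact mul_le_mul (norm_gammaRatio_le _ _) (norm_zeta_linePt_le _) (norm_nonneg _)
      (Real.exp_pos _).le
  have hb0 : ∀ y, ‖riemannZeta (linePt y)‖ ≤ Real.exp (24 * |y|) * S := fun y => by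
    refine ((norm_zeta_linePt_le y).trans_eq hS.symm).trans ?_
    exact le_mul_of_one_le_left hS0 (Real.one_le_exp (by positivity))
  have hdb : ∀ k y, ‖d k y‖ ≤ 2 * S * (Real.exp (24 * |y|) * kerBound c R y) := fun k y => by
    rw [hd, Real.norm_of_nonneg (mul_nonneg (norm_nonneg _) (hk0 y)),
      show 2 * S * (Real.exp (24 * |y|) * kerBound c R y) =
        (Real.exp (24 * |y|) * S + Real.exp (24 * |y|) * S) * kerBound c R y by ring]
    exact mul_le_mul_of_nonneg_right ((norm_sub_le _ _).trans (add_le_add (hb k y) (hb0 y)))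
      (hk0 y)
  have hdm : ∀ k, AEStronglyMeasurable (d k) volume := fun k => by
    have := hcont k
    have := continuous_zeta_linePt
    rw [hd]
    exact Continuous.aestronglyMeasurable (by unfold kerBound; fun_prop)
  have hdi : ∀ k, Integrable (d k) := fun k =>
    ((integrable_exp_abs_mul_kerBound hc 24 R).const_mul (2 * S)).mono' (hdm k)
      (Eventually.of_forall (hdb k))
  have hlim : Tendsto (fun k => ∫ y, d k y) atTop (𝓝 0) := by
    rw [show (0 : ℝ) = ∫ _ : ℝ, (0 : ℝ) by simp]
    refine tendsto_integral_of_dominated_convergence _ hdm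
      ((integrable_exp_abs_mul_kerBound hc 24 R).const_mul (2 * S))
      (fun k => Eventually.of_forall (hdb k)) (Eventually.of_forall fun y => ?_)
    have h := (tendsto_iff_norm_sub_tendsto_zero.1
      (((tendsto_gammaRatio y).comp hT).mul (tendsto_zeta_shift hT1 y))).mul_const (kerBound c R y)
    simp only [Function.comp_apply, one_mul, zero_mul] at h
    simpa only [hd] using h
  filter_upwards [hlim.eventually_lt_const hε] with k hk w hw
  rw [flowApprox_eq hc, ← integral_zeta_lineKer hc]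
  have hl := continuous_lineKer c w
  have i1 : Integrable fun y : ℝ =>
      gammaRatio (T k) y * riemannZeta (linePt (T k + y)) * lineKer c w y :=
    (((integrable_exp_abs_mul_kerBound hc 24 R).const_mul S).mono'
      ((hcont k).mul hl).aestronglyMeasurable (Eventually.of_forall fun y => by
        rw [norm_mul]
        refine (mul_le_mul (hb k y) (norm_lineKer_le hc hw y) (norm_nonneg _)
          (by positivity)).trans_eq ?_
        ring))
  have i2 : Integrable fun y : ℝ => riemannZeta (linePt y) * lineKer c w y :=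
    (((integrable_exp_abs_mul_kerBound hc 24 R).const_mul S).mono'
      (continuous_zeta_linePt.mul hl).aestronglyMeasurable (Eventually.of_forall fun y => by
        rw [norm_mul]
        refine (mul_le_mul (hb0 y) (norm_lineKer_le hc hw y) (norm_nonneg _)
          (by positivity)).trans_eq ?_
        ring))
  rw [← integral_sub i1 i2]
  refine lt_of_le_of_lt (norm_integral_le_of_norm_le (hdi k) (Eventually.of_forall fun y => ?_)) hk
  simp only [hd]
  rw [← sub_mul, norm_mul]
  exact mul_le_mul_of_nonneg_left (norm_lineKer_le hc hw y) (norm_nonneg _)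

theorem gaussSeries_zero_ne_zero (hc : 0 < c) : gaussSeries c 0 ≠ 0 := fun h => by
  have hs : Summable fun n : ℕ => Real.exp (-(c / 4 * Real.log (n + 1) ^ 2)) :=
    (summable_gaussTerm hc 0).norm.congr fun n => by simp [norm_gaussTerm]
  rw [gaussSeries, show (fun n : ℕ => gaussTerm c n 0) =
    fun n : ℕ => ((Real.exp (-(c / 4 * Real.log (n + 1) ^ 2)) : ℝ) : ℂ) from
      funext fun n => by simp [gaussTerm], ← Complex.ofReal_tsum, ofReal_eq_zero] at h
  exact (hs.tsum_pos (fun n => (Real.exp_pos _).le) 0 (Real.exp_pos _)).ne' h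

/-- **Newman's conjecture.** -/
theorem exists_zero_im_gt (hc : 0 < c) (B : ℝ) :
    ∃ z : ℂ, heatFlow (-c) xiWave z = 0 ∧ B < |z.im| := by
  by_contra hno
  push Not at hno
  obtain ⟨T, hT, hT1⟩ := exists_periods
  obtain ⟨w₀, hw₀⟩ := exists_gaussSeries_zero hc
  have hK : ((π : ℂ) * c) ^ (1 / 2 : ℂ) ≠ 0 := by
    rw [Ne, cpow_eq_zero_iff]
    simp [Real.pi_ne_zero, hc.ne']
  refine ne_zero_of_limit (U := ball w₀ 1) isOpen_ball
    (F := fun k : ℕ => flowApprox c (T k)) (fun k => differentiable_flowApprox hc.le _)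
    (g := fun w => ((π : ℂ) * c) ^ (1 / 2 : ℂ) * gaussSeries c w)
    ((differentiable_gaussSeries hc).const_mul _) (tendsto_flowApprox hc hT hT1) ?_
    ⟨0, mul_ne_zero hK (gaussSeries_zero_ne_zero hc)⟩ (mem_ball_self one_pos) (by simp [hw₀])
  filter_upwards [(tendsto_re_xiGammaLog.comp hT).eventually
    (eventually_gt_atTop ((|B| + 2 + 2 * (‖w₀‖ + 1)) / c))] with k hk w hw
  have hk' : |B| + 2 + 2 * (‖w₀‖ + 1) < (xiGammaLog (linePt (T k))).re * c := by
    rw [Function.comp_apply, div_lt_iff₀ hc] at hk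
    exact hk
  refine div_ne_zero (mul_ne_zero (mul_ne_zero (by norm_num)
    (ofReal_ne_zero.2 (Real.sqrt_pos.2 (by positivity)).ne')) fun h0 => ?_)
      (flowNorm_ne_zero c (T k) w)
  have h := hno _ h0
  have him : (flowPt c (T k) w).im =
      -(2 * w.re + c * (xiGammaLog (linePt (T k))).re - 1) := by
    simp [flowPt]
    ring
  rw [him, abs_neg] at h
  have hwb : -(‖w₀‖ + 1) ≤ w.re := by
    rw [mem_ball, dist_eq_norm] at hw
    linarith [(abs_le.1 (abs_re_le_norm w)).1, norm_le_norm_add_norm_sub' w w₀]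
  linarith [le_abs_self B, le_abs_self (2 * w.re + c * (xiGammaLog (linePt (T k))).re - 1)]

end FA.DeBruijnNewman

end
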