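import Fermat.Agent.DeBruijn.Cosine
import Fermat.Agent.DeBruijn.Xi
import Fermat.Agent.DeBruijnNewman.Gauss
import Fermat.Agent.DeBruijnNewman.Kernel
import Mathlib.Analysis.SpecialFunctions.Gaussian.FourierTransform
import Mathlib.MeasureTheory.Integral.Prod

/-!
# Pólya's representation of `ξ`, and the flow as an integral

Term by term `∫ Φ u exp ((2 s - 1) u) = ξ s / 4` for `re s > 1`; as `Φ` is even this is
`∫ Φ u cos (z u) = ξ (1/2 + i z/2) / 4` for every `z`. At every real time the series flow of a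
cosine transform multiplies the kernel by `exp (t u²)`.
-/

set_option autoImplicit false

noncomputable section

namespace FA.DeBruijnNewman

open Complex Filter Topology MeasureTheory FA.DeBruijn
open FA.RiemannMangoldt (xiFn xiFn_eq)
open scoped Real

/-- `exp (b u) exp (-a e^(4u))`. -/
def expKer (a : ℝ) (b : ℂ) (u : ℝ) : ℂ := cexp (b * u - (a * Real.exp (4 * u) : ℝ))

theorem integral_expKer {a : ℝ} (ha : 0 < a) {b : ℂ} (hb : 0 < b.re) :
    Integrable (expKer a b) ∧
      ∫ u, expKer a b u = cexp (-(b / 4) * Real.log a) * Complex.Gamma (b / 4) / 4 := by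
  have h0 : 0 < (b / 4).re := by simpa using hb
  have himg : (fun u : ℝ => Real.exp (4 * u)) '' Set.univ = Set.Ioi 0 := by
    ext x
    constructor
    · rintro ⟨u, -, rfl⟩; exact Real.exp_pos _
    · intro hx
      exact ⟨Real.log x / 4, trivial, by
        simp only [mul_div_cancel₀ _ (four_ne_zero' ℝ), Real.exp_log hx]⟩
  have h := integral_image_eq_integral_abs_deriv_smul (f := fun u : ℝ => Real.exp (4 * u))
    (f' := fun u : ℝ => 4 * Real.exp (4 * u)) MeasurableSet.univ
    (fun u _ => ((((hasDerivAt_id' u).const_mul 4).exp).congr_deriv (by ring)).hasDerivWithinAt)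
    (fun u _ v _ huv => by simpa using huv)
    (fun t : ℝ => (t : ℂ) ^ (b / 4 - 1) * cexp (-(a * t)))
  rw [himg, Measure.restrict_univ, integral_cpow_mul_exp_neg_mul_Ioi h0 ha] at h
  have e : ∀ u : ℝ, |4 * Real.exp (4 * u)| • (((Real.exp (4 * u) : ℝ) : ℂ) ^ (b / 4 - 1) *
      cexp (-(a * (Real.exp (4 * u) : ℝ)))) = 4 * expKer a b u := fun u => by
    rw [abs_of_pos (by positivity), Complex.real_smul,
      cpow_def_of_ne_zero (ofReal_ne_zero.2 (Real.exp_pos _).ne'),
      ← Complex.ofReal_log (Real.exp_pos _).le, Real.log_exp, expKer, ofReal_mul, ofReal_exp,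
      mul_assoc, ← mul_assoc (cexp ((4 * u : ℝ) : ℂ)), ← Complex.exp_add, ← Complex.exp_add]
    push_cast
    congr 2
    ring
  simp only [e] at h
  have hval : (1 / (a : ℂ)) ^ (b / 4) = cexp (-(b / 4) * Real.log a) := by
    rw [show (1 / (a : ℂ)) = ((1 / a : ℝ) : ℂ) by push_cast; rfl,
      cpow_def_of_ne_zero (ofReal_ne_zero.2 (by positivity)),
      ← Complex.ofReal_log (by positivity), Real.log_div one_ne_zero ha.ne', Real.log_one]
    push_cast
    ring_nf
  rw [hval, integral_const_mul] at h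
  have hI : ∫ u, expKer a b u = cexp (-(b / 4) * Real.log a) * Complex.Gamma (b / 4) / 4 := by
    rw [h]; ring
  refine ⟨by_contra fun hno => ?_, hI⟩
  rw [integral_undef hno] at hI
  exact div_ne_zero (mul_ne_zero (Complex.exp_ne_zero _) (Complex.Gamma_ne_zero_of_re_pos h0))
    (by norm_num) hI.symm

/-- A term of the bilateral transform. -/
def polyaMellin (s : ℂ) (n : ℕ) (u : ℝ) : ℂ := (polyaTerm n u : ℂ) * cexp ((2 * s - 1) * u)

theorem polyaMellin_eq (s : ℂ) (n : ℕ) (u : ℝ) : polyaMellin s n u =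
    2 * (polyaCoef n : ℂ) ^ 2 * expKer (polyaCoef n) (8 + 2 * s) u -
      3 * (polyaCoef n : ℂ) * expKer (polyaCoef n) (4 + 2 * s) u := by
  rw [polyaMellin, polyaTerm, expKer, expKer, Complex.exp_sub, Complex.exp_sub,
    show (8 + 2 * s) * (u : ℂ) = 9 * u + (2 * s - 1) * u by ring,
    show (4 + 2 * s) * (u : ℂ) = 5 * u + (2 * s - 1) * u by ring, Complex.exp_add, Complex.exp_add]
  push_cast
  rw [Complex.exp_neg]
  field_simp

theorem cexp_log_polyaCoef (s : ℂ) (n : ℕ) : cexp (-(s / 2) * Real.log (polyaCoef n)) =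
    (π : ℂ) ^ (-s / 2) * (1 / ((n : ℂ) + 1) ^ s) := by
  rw [cpow_def_of_ne_zero (ofReal_ne_zero.2 Real.pi_ne_zero), ← Complex.ofReal_log Real.pi_pos.le,
    show ((n : ℂ) + 1) = (((n : ℝ) + 1 : ℝ) : ℂ) by push_cast; rfl,
    cpow_def_of_ne_zero (ofReal_ne_zero.2 (by positivity)), ← Complex.ofReal_log (by positivity),
    one_div, ← Complex.exp_neg, ← Complex.exp_add, polyaCoef,
    Real.log_mul Real.pi_ne_zero (by positivity), Real.log_pow]
  push_cast
  ring_nf

theorem integral_polyaMellin {s : ℂ} (hs : 0 < s.re) (n : ℕ) :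
    Integrable (polyaMellin s n) ∧ ∫ u, polyaMellin s n u =
      s * (s - 1) / 8 * Gammaℝ s * (1 / ((n : ℂ) + 1) ^ s) := by
  have ha := polyaCoef_pos n
  obtain ⟨i1, v1⟩ := integral_expKer ha (b := 8 + 2 * s) (by simp; linarith)
  obtain ⟨i2, v2⟩ := integral_expKer ha (b := 4 + 2 * s) (by simp; linarith)
  rw [funext (polyaMellin_eq s n)]
  refine ⟨(i1.const_mul _).sub (i2.const_mul _), ?_⟩
  rw [integral_sub (i1.const_mul _) (i2.const_mul _), integral_const_mul, integral_const_mul, v1,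
    v2]
  have hs0 : s / 2 ≠ 0 := fun h => by
    have := congrArg Complex.re h
    simp at this
    linarith
  have hs1 : s / 2 + 1 ≠ 0 := fun h => by
    have := congrArg Complex.re h
    simp at this
    linarith
  have he1 : cexp (-((8 + 2 * s) / 4) * Real.log (polyaCoef n)) =
      cexp (-(s / 2) * Real.log (polyaCoef n)) / (polyaCoef n : ℂ) ^ 2 := by
    rw [eq_div_iff (pow_ne_zero _ (ofReal_ne_zero.2 ha.ne'))]
    nth_rw 2 [← Real.exp_log ha]
    rw [ofReal_exp, ← Complex.exp_nat_mul, ← Complex.exp_add]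
    push_cast
    ring_nf
  have he2 : cexp (-((4 + 2 * s) / 4) * Real.log (polyaCoef n)) =
      cexp (-(s / 2) * Real.log (polyaCoef n)) / (polyaCoef n : ℂ) := by
    rw [eq_div_iff (ofReal_ne_zero.2 ha.ne')]
    nth_rw 2 [← Real.exp_log ha]
    rw [ofReal_exp, ← Complex.exp_add]
    ring_nf
  rw [he1, he2, cexp_log_polyaCoef, show (8 + 2 * s) / 4 = s / 2 + 1 + 1 by ring,
    show (4 + 2 * s) / 4 = s / 2 + 1 by ring, Complex.Gamma_add_one _ hs1,
    Complex.Gamma_add_one _ hs0, Gammaℝ_def]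
  have : (polyaCoef n : ℂ) ≠ 0 := ofReal_ne_zero.2 ha.ne'
  field_simp
  ring

theorem integral_norm_polyaMellin_le {s : ℂ} (hs : 0 < s.re) (n : ℕ) :
    ∫ u, ‖polyaMellin s n u‖ ≤
      (2 * ‖Complex.Gamma (2 + (s.re : ℂ) / 2)‖ + 3 * ‖Complex.Gamma (1 + (s.re : ℂ) / 2)‖) / 4 *
        (π ^ (-s.re / 2) * (1 / ((n : ℝ) + 1) ^ s.re)) := by
  have ha := polyaCoef_pos n
  obtain ⟨x, hx⟩ : ∃ x, x = s.re := ⟨_, rfl⟩
  obtain ⟨i1, v1⟩ := integral_expKer ha (b := 8 + 2 * s) (by simp; linarith)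
  obtain ⟨i2, v2⟩ := integral_expKer ha (b := 4 + 2 * s) (by simp; linarith)
  obtain ⟨j1, w1⟩ := integral_expKer ha (b := 8 + 2 * (x : ℂ)) (by simp; linarith)
  obtain ⟨j2, w2⟩ := integral_expKer ha (b := 4 + 2 * (x : ℂ)) (by simp; linarith)
  have hre : ∀ (k : ℝ) (u : ℝ), ((‖expKer (polyaCoef n) (k + 2 * s) u‖ : ℝ) : ℂ) =
      expKer (polyaCoef n) (k + 2 * (x : ℂ)) u := fun k u => by
    rw [expKer, expKer, Complex.norm_exp, ofReal_exp]
    simp only [sub_re, mul_re, add_re, ofReal_re, ofReal_im, add_im, mul_im, re_ofNat, im_ofNat, hx]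
    push_cast
    ring_nf
  have h8 := fun u => hre 8 u
  have h4 := fun u => hre 4 u
  simp only [ofReal_ofNat] at h8 h4
  have hn1 : ∫ u, ‖expKer (polyaCoef n) (8 + 2 * s) u‖ =
      ‖∫ u, expKer (polyaCoef n) (8 + 2 * (x : ℂ)) u‖ := by
    simp only [← h8]
    rw [integral_complex_ofReal, Complex.norm_real, Real.norm_of_nonneg
      (integral_nonneg fun u => norm_nonneg _)]
  have hn2 : ∫ u, ‖expKer (polyaCoef n) (4 + 2 * s) u‖ =
      ‖∫ u, expKer (polyaCoef n) (4 + 2 * (x : ℂ)) u‖ := by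
    simp only [← h4]
    rw [integral_complex_ofReal, Complex.norm_real, Real.norm_of_nonneg
      (integral_nonneg fun u => norm_nonneg _)]
  refine le_trans (integral_mono_of_nonneg (Eventually.of_forall fun u => norm_nonneg _)
    ((i1.norm.const_mul (2 * polyaCoef n ^ 2)).add (i2.norm.const_mul (3 * polyaCoef n)))
    (Eventually.of_forall fun u => ?_)) (le_of_eq ?_)
  · simp only [Pi.add_apply]
    rw [polyaMellin_eq]
    refine (norm_sub_le _ _).trans_eq ?_
    simp [abs_of_pos ha]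
  · simp only [Pi.add_apply]
    rw [integral_add (i1.norm.const_mul _) (i2.norm.const_mul _), integral_const_mul,
      integral_const_mul, hn1, hn2, w1, w2, norm_div, norm_mul, norm_div, norm_mul,
      Complex.norm_exp, Complex.norm_exp, Complex.norm_ofNat,
      show (8 + 2 * (x : ℂ)) / 4 = 2 + (x : ℂ) / 2 by ring,
      show (4 + 2 * (x : ℂ)) / 4 = 1 + (x : ℂ) / 2 by ring, ← hx]
    have e1 : Real.exp ((-(2 + (x : ℂ) / 2) * (Real.log (polyaCoef n) : ℝ)).re) =
        Real.exp (-(x / 2) * Real.log (polyaCoef n)) / polyaCoef n ^ 2 := by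
      rw [eq_div_iff (pow_ne_zero _ ha.ne')]
      nth_rw 2 [← Real.exp_log ha]
      rw [← Real.exp_nat_mul, ← Real.exp_add]
      simp
      ring_nf
    have e2 : Real.exp ((-(1 + (x : ℂ) / 2) * (Real.log (polyaCoef n) : ℝ)).re) =
        Real.exp (-(x / 2) * Real.log (polyaCoef n)) / polyaCoef n := by
      rw [eq_div_iff ha.ne']
      nth_rw 2 [← Real.exp_log ha]
      rw [← Real.exp_add]
      simp
      ring_nf
    have e3 : π ^ (-x / 2) * (1 / ((n : ℝ) + 1) ^ x) =
        Real.exp (-(x / 2) * Real.log (polyaCoef n)) := by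
      rw [Real.rpow_def_of_pos Real.pi_pos, Real.rpow_def_of_pos (by positivity), one_div,
        ← Real.exp_neg, ← Real.exp_add, polyaCoef, Real.log_mul Real.pi_ne_zero (by positivity),
        Real.log_pow]
      push_cast
      ring_nf
    rw [e1, e2, e3]
    field_simp

theorem integral_polyaPhi_exp {s : ℂ} (hs : 1 < s.re) :
    ∫ u : ℝ, (polyaPhi u : ℂ) * cexp ((2 * s - 1) * u) = xiFn s / 4 := by
  have hs0 : 0 < s.re := by linarith
  have hsum : Summable fun n : ℕ => 1 / ((n : ℝ) + 1) ^ s.re := by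
    simpa using (summable_nat_add_iff (f := fun n : ℕ => 1 / (n : ℝ) ^ s.re) 1).2
      (Real.summable_one_div_nat_rpow.2 hs)
  have h := hasSum_integral_of_summable_integral_norm
    (F := fun n => polyaMellin s n) (fun n => (integral_polyaMellin hs0 n).1)
    (Summable.of_nonneg_of_le (fun n => integral_nonneg fun u => norm_nonneg _)
      (integral_norm_polyaMellin_le hs0) ((hsum.mul_left _).mul_left _))
  have e : (fun u : ℝ => ∑' n, polyaMellin s n u) =
      fun u : ℝ => (polyaPhi u : ℂ) * cexp ((2 * s - 1) * u) := funext fun u => by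
    rw [polyaPhi, Complex.ofReal_tsum, ← tsum_mul_right]
    rfl
  rw [e] at h
  have h1 : s ≠ 1 := fun h1 => by rw [h1] at hs; simp at hs
  rw [← h.tsum_eq, tsum_congr fun n => (integral_polyaMellin hs0 n).2, tsum_mul_left,
    ← zeta_eq_tsum_one_div_nat_add_one_cpow hs, xiFn_eq hs0, riemannZeta_eq_inv_sub_mul h1]
  have := sub_ne_zero.2 h1
  field_simp
  ring

theorem gaussDecay_polyaPhi (t : ℝ) :
    GaussDecay fun u => polyaPhi u / 2 * Real.exp (t * u ^ 2) := fun c => by
  obtain ⟨C, hC⟩ := exists_polyaPhi_bound (t + c + 1)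
  refine ((integrable_exp_neg_mul_sq one_pos).const_mul C).mono'
    ((((continuous_polyaPhi.div_const 2).mul (by fun_prop)).mul (by fun_prop)
      ).aestronglyMeasurable) (Eventually.of_forall fun u => ?_)
  rw [Real.norm_eq_abs, abs_of_pos (by have := polyaPhi_pos u; positivity), mul_assoc,
    ← Real.exp_add]
  refine (mul_le_mul_of_nonneg_right ((half_le_self (polyaPhi_pos u).le).trans (hC u))
    (Real.exp_pos _).le).trans_eq ?_
  rw [mul_assoc, ← Real.exp_add]
  ring_nf

theorem gaussDecay_half_polyaPhi : GaussDecay fun u => polyaPhi u / 2 := by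
  simpa using gaussDecay_polyaPhi 0

theorem integrable_phi_exp (b : ℂ) :
    Integrable fun u : ℝ => (polyaPhi u : ℂ) * cexp (b * u) := by
  obtain ⟨C, hC⟩ := exists_polyaPhi_bound 2
  refine ((integrable_exp_neg_mul_sq one_pos).const_mul (C * Real.exp (b.re ^ 2 / 4))).mono'
    (((Complex.continuous_ofReal.comp continuous_polyaPhi).mul (by fun_prop)
      ).aestronglyMeasurable) (Eventually.of_forall fun u => ?_)
  rw [norm_mul, Complex.norm_real, Real.norm_of_nonneg (polyaPhi_pos u).le, Complex.norm_exp]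
  refine (mul_le_mul_of_nonneg_right (hC u) (Real.exp_pos _).le).trans ?_
  have hC0 : 0 ≤ C := by
    have := (polyaPhi_pos 0).le.trans (hC 0)
    simpa using this
  rw [mul_assoc, ← Real.exp_add, mul_assoc, ← Real.exp_add]
  refine mul_le_mul_of_nonneg_left (Real.exp_le_exp.2 ?_) hC0
  simp
  nlinarith [sq_nonneg (u - b.re / 2)]

/-- **Pólya's representation** over the line. -/
theorem cosTransform_polyaPhi : cosTransform (fun u => polyaPhi u / 2) = xiWave := by
  refine AnalyticOnNhd.eq_of_eventuallyEq (z₀ := -2 * I)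
    (gaussDecay_half_polyaPhi.heatGrowth.diff.differentiableOn.analyticOnNhd isOpen_univ)
    (heatGrowth_xiWave.diff.differentiableOn.analyticOnNhd isOpen_univ) ?_
  have hopen : IsOpen {z : ℂ | z.im < -1} := isOpen_lt Complex.continuous_im continuous_const
  filter_upwards [hopen.mem_nhds (show -2 * I ∈ {z : ℂ | z.im < -1} by simp)] with z hz
  have hz' : z.im < -1 := hz
  have hs : 1 < (1 / 2 + I * z / 2).re := by simp; linarith
  have h := integral_polyaPhi_exp hs
  rw [show 2 * (1 / 2 + I * z / 2) - 1 = I * z by ring] at h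
  have hneg : ∫ u : ℝ, (polyaPhi u : ℂ) * cexp (-(I * z) * u) =
      ∫ u : ℝ, (polyaPhi u : ℂ) * cexp (I * z * u) := by
    rw [← integral_neg_eq_self]
    simp only [polyaPhi_neg, ofReal_neg, neg_mul_neg]
  have hc : ∀ u : ℝ, ((polyaPhi u / 2 : ℝ) : ℂ) * Complex.cos (z * u) =
      ((polyaPhi u : ℂ) * cexp (I * z * u) + (polyaPhi u : ℂ) * cexp (-(I * z) * u)) / 4 :=
    fun u => by
      rw [Complex.cos]
      push_cast
      ring_nf
  rw [cosTransform, integral_congr_ae (Eventually.of_forall hc), integral_div,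
    integral_add (integrable_phi_exp _) (integrable_phi_exp _), hneg, h, xiWave]
  ring

theorem heatFlow_neg_cosTransform {φ : ℝ → ℝ} (hφ : GaussDecay φ) {c : ℝ} (hc : 0 < c) :
    heatFlow (-c) (cosTransform φ) = cosTransform fun u => φ u * Real.exp (-c * u ^ 2) := by
  funext z
  have hK : ((√(4 * π * c) : ℝ) : ℂ) ≠ 0 :=
    ofReal_ne_zero.2 (Real.sqrt_pos.2 (by positivity)).ne'
  refine mul_left_cancel₀ hK ?_
  rw [← integral_eq_heatFlow_neg hφ.heatGrowth hc z z]
  simp only [add_sub_cancel_left, gaussKer_ofReal, cosTransform]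
  have hprod : Integrable (fun p : ℝ × ℝ => (φ p.2 : ℂ) * Complex.cos ((z + p.1) * p.2) *
      (Real.exp (-(p.1 ^ 2) / (4 * c)) : ℂ)) (volume.prod volume) := by
    refine ((integrable_exp_neg_mul_sq (show 0 < 1 / (8 * c) by positivity)).mul_prod
      ((hφ.bound_integrable (1 + 2 * c)).const_mul (Real.exp (‖z‖ ^ 2 / 4)))).mono' ?_
      (Eventually.of_forall fun p => ?_)
    · exact ((Complex.continuous_ofReal.comp_aestronglyMeasurable hφ.aesm.comp_snd).mul
        (show Continuous fun p : ℝ × ℝ => Complex.cos ((z + p.1) * p.2) by fun_prop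
          ).aestronglyMeasurable).mul
        (show Continuous fun p : ℝ × ℝ => (Real.exp (-(p.1 ^ 2) / (4 * c)) : ℂ) by fun_prop
          ).aestronglyMeasurable
    · rw [norm_mul, norm_mul, Complex.norm_real, Complex.norm_real, Real.norm_eq_abs,
        Real.norm_of_nonneg (Real.exp_pos _).le]
      refine (mul_le_mul_of_nonneg_right (mul_le_mul_of_nonneg_left (norm_cos_le_exp _)
        (abs_nonneg _)) (Real.exp_pos _).le).trans ?_
      rw [mul_assoc, ← Real.exp_add, show Real.exp (-(1 / (8 * c)) * p.1 ^ 2) *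
        (Real.exp (‖z‖ ^ 2 / 4) * (|φ p.2| * Real.exp ((1 + 2 * c) * p.2 ^ 2))) = |φ p.2| *
          (Real.exp (-(1 / (8 * c)) * p.1 ^ 2) * Real.exp (‖z‖ ^ 2 / 4) *
            Real.exp ((1 + 2 * c) * p.2 ^ 2)) by ring, ← Real.exp_add, ← Real.exp_add]
      refine mul_le_mul_of_nonneg_left (Real.exp_le_exp.2 ?_) (abs_nonneg _)
      have h1 : ‖(z + p.1) * p.2‖ ≤ (‖z‖ + |p.1|) * |p.2| := by
        rw [norm_mul, Complex.norm_real, Real.norm_eq_abs]
        refine mul_le_mul_of_nonneg_right ((norm_add_le _ _).trans ?_) (abs_nonneg _)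
        rw [Complex.norm_real, Real.norm_eq_abs]
      have h2 : |p.1| * |p.2| ≤ p.1 ^ 2 / (8 * c) + 2 * c * p.2 ^ 2 := by
        rw [← sub_nonneg]
        refine (show (0 : ℝ) ≤ (|p.1| - 4 * c * |p.2|) ^ 2 / (8 * c) by positivity).trans_eq ?_
        rw [← sq_abs p.1, ← sq_abs p.2]
        field_simp
        ring
      have h3 : ‖z‖ * |p.2| ≤ ‖z‖ ^ 2 / 4 + p.2 ^ 2 := by
        nlinarith [sq_nonneg (|p.2| - ‖z‖ / 2), sq_abs p.2]
      have h4 : -(p.1 ^ 2) / (4 * c) = -2 * (p.1 ^ 2 / (8 * c)) := by field_simp; ring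
      have h5 : -(1 / (8 * c)) * p.1 ^ 2 = -(p.1 ^ 2 / (8 * c)) := by ring
      linarith
  simp only [← integral_mul_const]
  rw [integral_integral_swap hprod, ← integral_const_mul]
  refine integral_congr_ae (Eventually.of_forall fun u => ?_)
  beta_reduce
  rw [integral_congr_ae (g := fun v : ℝ => (φ u : ℂ) * (Complex.cos ((z + v) * u) *
      (Real.exp (-(v ^ 2) / (4 * c)) : ℂ))) (Eventually.of_forall fun v => mul_assoc _ _ _),
    integral_const_mul, ofReal_mul (φ u), mul_assoc ((φ u : ℝ) : ℂ),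
    mul_left_comm ((√(4 * π * c) : ℝ) : ℂ)]
  congr 1
  have hb : ((-1 / (4 * c) : ℝ) : ℂ).re < 0 := by
    rw [ofReal_re, neg_div, Left.neg_neg_iff]; positivity
  have hpt : ∀ v : ℝ, Complex.cos ((z + v) * u) * (Real.exp (-(v ^ 2) / (4 * c)) : ℂ) =
      (cexp (((-1 / (4 * c) : ℝ) : ℂ) * (v : ℂ) ^ 2 + (u * I) * v + z * u * I) +
        cexp (((-1 / (4 * c) : ℝ) : ℂ) * (v : ℂ) ^ 2 + (-(u * I)) * v + -(z * u * I))) / 2 :=
    fun v => by
      rw [Complex.cos, div_mul_eq_mul_div, add_mul, ofReal_exp, ← Complex.exp_add,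
        ← Complex.exp_add]
      push_cast
      ring_nf
  rw [integral_congr_ae (Eventually.of_forall hpt), integral_div,
    integral_add (integrable_cexp_quadratic' hb _ _) (integrable_cexp_quadratic' hb _ _),
    integral_cexp_quadratic hb, integral_cexp_quadratic hb, ← mul_add]
  have hsqrt : ((π : ℂ) / -((-1 / (4 * c) : ℝ) : ℂ)) ^ (1 / 2 : ℂ) = (√(4 * π * c) : ℂ) := by
    rw [show (π : ℂ) / -((-1 / (4 * c) : ℝ) : ℂ) = ((4 * π * c : ℝ) : ℂ) by
        push_cast; field_simp,
      Real.sqrt_eq_rpow, Complex.ofReal_cpow (by positivity)]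
    push_cast
    rfl
  rw [hsqrt, mul_div_assoc]
  congr 1
  have hd : ∀ w : ℂ, w ^ 2 = -((u : ℂ) ^ 2) →
      w ^ 2 / (4 * ((-1 / (4 * c) : ℝ) : ℂ)) = (c : ℂ) * (u : ℂ) ^ 2 := fun w hw => by
    have : (c : ℂ) ≠ 0 := ofReal_ne_zero.2 hc.ne'
    rw [hw]
    push_cast
    field_simp
  rw [hd _ (by rw [mul_pow, I_sq]; ring), hd _ (by rw [neg_sq, mul_pow, I_sq]; ring),
    Complex.cos, ofReal_exp, sub_eq_add_neg, sub_eq_add_neg, Complex.exp_add, Complex.exp_add]
  push_cast
  ring_nf

/-- **The two definitions agree at every real time.** -/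
theorem heatFlow_cosTransform_real {φ : ℝ → ℝ} (hφ : GaussDecay φ) (t : ℝ) :
    heatFlow t (cosTransform φ) = cosTransform fun u => φ u * Real.exp (t * u ^ 2) := by
  rcases le_or_gt 0 t with ht | ht
  · exact heatFlow_cosTransform hφ ht
  · have := heatFlow_neg_cosTransform hφ (neg_pos.2 ht)
    simpa using this

/-- **The classical flow**. -/
theorem heatFlow_xiWave (t : ℝ) : heatFlow t xiWave =
    cosTransform fun u => polyaPhi u / 2 * Real.exp (t * u ^ 2) := by
  rw [← cosTransform_polyaPhi]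
  exact heatFlow_cosTransform_real gaussDecay_half_polyaPhi t

theorem two_mul_setIntegral_of_even {f : ℝ → ℂ} (hf : Integrable f) (he : ∀ u, f (-u) = f u) :
    ∫ u, f u = 2 * ∫ u in Set.Ioi 0, f u := by
  rw [← integral_add_compl measurableSet_Ioi hf, Set.compl_Ioi (a := (0 : ℝ))]
  have h := integral_comp_neg_Ioi (0 : ℝ) f
  simp only [he, neg_zero] at h
  rw [← h]
  ring

/-- The flow on the half line. -/
theorem heatFlow_xiWave_half (t : ℝ) (z : ℂ) : heatFlow t xiWave z =
    ∫ u in Set.Ioi (0 : ℝ),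
      ((Real.exp (t * u ^ 2) * polyaPhi u : ℝ) : ℂ) * Complex.cos (z * u) := by
  rw [heatFlow_xiWave, cosTransform, two_mul_setIntegral_of_even
    ((gaussDecay_polyaPhi t).integrable_cos z)
      (fun u => by simp only [polyaPhi_neg, neg_sq, ofReal_neg, mul_neg, Complex.cos_neg]),
    ← integral_const_mul]
  refine setIntegral_congr_fun measurableSet_Ioi fun u _ => ?_
  push_cast
  ring

end FA.DeBruijnNewman

end
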