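import Fermat.Agent.DeBruijnNewman.Main
import Fermat.Agent.DeBruijnNewman.Transform

/-!
# The set of times with only real zeros is a closed half-line

It is upward closed by de Bruijn's theorem and closed by Hurwitz's lemma, as the flow at time `t`
is positive at the origin and continuous in `t` uniformly on discs.
-/

set_option autoImplicit false

noncomputable section

namespace FA.DeBruijnNewman

open Complex Filter Topology MeasureTheory FA.DeBruijn

/-- The times at which all zeros are real. -/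
def realTimes : Set ℝ := {t : ℝ | ∀ z : ℂ, heatFlow t xiWave z = 0 → z.im = 0}

/-- `Λ`. -/
def newmanLambda : ℝ := sInf realTimes

theorem flow_zero_ne_zero (t : ℝ) : heatFlow t xiWave 0 ≠ 0 := by
  rw [heatFlow_xiWave, cosTransform]
  simp only [zero_mul, Complex.cos_zero, mul_one]
  rw [integral_complex_ofReal, ofReal_ne_zero]
  have hi : Integrable fun u : ℝ => polyaPhi u / 2 * Real.exp (t * u ^ 2) := by
    simpa using gaussDecay_polyaPhi t 0
  have hpos : ∀ u : ℝ, 0 < polyaPhi u / 2 * Real.exp (t * u ^ 2) := fun u => by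
    have := polyaPhi_pos u
    positivity
  refine (integral_pos_iff_support_of_nonneg (fun u => (hpos u).le) hi).2 ?_ |>.ne'
  rw [show Function.support (fun u : ℝ => polyaPhi u / 2 * Real.exp (t * u ^ 2)) = Set.univ from
    Set.eq_univ_of_forall fun u => (hpos u).ne']
  simp

theorem mem_realTimes_mono {t s : ℝ} (ht : t ∈ realTimes) (hts : t ≤ s) : s ∈ realTimes := by
  intro z hz
  have hne : ∃ z, cosTransform (fun u => polyaPhi u / 2 * Real.exp (t * u ^ 2)) z ≠ 0 :=
    ⟨0, by rw [← heatFlow_xiWave]; exact flow_zero_ne_zero t⟩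
  have h := stripZeros_cosTransform (gaussDecay_polyaPhi t) (D := 0) hne fun w hw => by
    rw [← heatFlow_xiWave] at hw
    rw [ht w hw]
    norm_num
  have hz' : heatFlow (s - t) (cosTransform fun u => polyaPhi u / 2 * Real.exp (t * u ^ 2)) z = 0 :=
    by
    rw [heatFlow_cosTransform (gaussDecay_polyaPhi t) (sub_nonneg.2 hts)]
    rw [heatFlow_xiWave] at hz
    refine (congrArg (fun φ => cosTransform φ z) (funext fun u => ?_)).trans hz
    rw [mul_assoc, ← Real.exp_add]
    ring_nf
  have := h.heat_zeros (sub_nonneg.2 hts) hz'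
  rw [max_eq_right (by linarith)] at this
  exact sq_eq_zero_iff.1 (le_antisymm this (sq_nonneg _))

theorem tendsto_flow {T : ℕ → ℝ} {t : ℝ} (hT : Tendsto T atTop (𝓝 t)) (R ε : ℝ) (hε : 0 < ε) :
    ∀ᶠ k in atTop, ∀ z : ℂ, ‖z‖ ≤ R →
      ‖heatFlow (T k) xiWave z - heatFlow t xiWave z‖ < ε := by
  obtain ⟨M, hM⟩ : ∃ M, ∀ k, T k ≤ M := by
    obtain ⟨M, hM⟩ := hT.bddAbove_range
    exact ⟨M, fun k => hM ⟨k, rfl⟩⟩
  obtain ⟨B, hB⟩ : ∃ B, B = max M t := ⟨_, rfl⟩
  obtain ⟨d, hd⟩ : ∃ d : ℕ → ℝ → ℝ, d = fun k u =>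
      |Real.exp (T k * u ^ 2) - Real.exp (t * u ^ 2)| * (polyaPhi u / 2 * Real.exp (R * |u|)) :=
    ⟨_, rfl⟩
  have hdm : ∀ k, AEStronglyMeasurable (d k) volume := fun k => by
    have := continuous_polyaPhi
    rw [hd]
    exact Continuous.aestronglyMeasurable (by fun_prop)
  have hdb : ∀ k u, ‖d k u‖ ≤ 2 * (polyaPhi u / 2 * Real.exp (B * u ^ 2) *
      Real.exp (1 * u ^ 2)) * Real.exp (R ^ 2) := fun k u => by
    have := polyaPhi_pos u
    rw [hd, Real.norm_of_nonneg (by positivity),
      show 2 * (polyaPhi u / 2 * Real.exp (B * u ^ 2) * Real.exp (1 * u ^ 2)) * Real.exp (R ^ 2) =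
        (2 * Real.exp (B * u ^ 2)) * (polyaPhi u / 2 * (Real.exp (1 * u ^ 2) * Real.exp (R ^ 2))) by
          ring, ← Real.exp_add]
    refine mul_le_mul ((abs_sub _ _).trans ?_) (mul_le_mul_of_nonneg_left (Real.exp_le_exp.2 ?_)
      (by positivity)) (by positivity) (by positivity)
    · rw [abs_of_pos (Real.exp_pos _), abs_of_pos (Real.exp_pos _), two_mul, hB]
      gcongr
      · exact (hM k).trans (le_max_left _ _)
      · exact le_max_right _ _
    · nlinarith [sq_nonneg (|u| - R / 2), sq_abs u, sq_nonneg R]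
  have hdom := (((gaussDecay_polyaPhi B) 1).const_mul 2).mul_const (Real.exp (R ^ 2))
  have hdi : ∀ k, Integrable (d k) := fun k =>
    hdom.mono' (hdm k) (Eventually.of_forall (hdb k))
  have hlim : Tendsto (fun k => ∫ u, d k u) atTop (𝓝 0) := by
    rw [show (0 : ℝ) = ∫ _ : ℝ, (0 : ℝ) by simp]
    refine tendsto_integral_of_dominated_convergence _ hdm hdom
      (fun k => Eventually.of_forall (hdb k)) (Eventually.of_forall fun u => ?_)
    have hc : Continuous fun τ : ℝ =>
        |Real.exp (τ * u ^ 2) - Real.exp (t * u ^ 2)| * (polyaPhi u / 2 * Real.exp (R * |u|)) := by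
      fun_prop
    simpa [hd, Function.comp_def] using (hc.tendsto t).comp hT
  filter_upwards [hlim.eventually_lt_const hε] with k hk z hz
  rw [heatFlow_xiWave, heatFlow_xiWave, cosTransform, cosTransform,
    ← integral_sub ((gaussDecay_polyaPhi _).integrable_cos z)
      ((gaussDecay_polyaPhi _).integrable_cos z)]
  refine lt_of_le_of_lt (norm_integral_le_of_norm_le (hdi k) (Eventually.of_forall fun u => ?_)) hk
  have := polyaPhi_pos u
  simp only [hd]
  rw [← sub_mul, ← ofReal_sub, ← mul_sub, norm_mul, Complex.norm_real, Real.norm_eq_abs, abs_mul,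
    abs_of_pos (by positivity : 0 < polyaPhi u / 2)]
  calc polyaPhi u / 2 * |Real.exp (T k * u ^ 2) - Real.exp (t * u ^ 2)| * ‖Complex.cos (z * u)‖
      ≤ polyaPhi u / 2 * |Real.exp (T k * u ^ 2) - Real.exp (t * u ^ 2)| * Real.exp (R * |u|) := by
        refine mul_le_mul_of_nonneg_left ((norm_cos_le_exp _).trans (Real.exp_le_exp.2 ?_))
          (by positivity)
        rw [norm_mul, Complex.norm_real, Real.norm_eq_abs]
        exact mul_le_mul_of_nonneg_right hz (abs_nonneg _)
    _ = _ := by ring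

theorem isClosed_realTimes : IsClosed realTimes := by
  refine IsSeqClosed.isClosed fun T t hT hlim z hz => ?_
  by_contra him
  refine ne_zero_of_limit (U := {w : ℂ | w.im ≠ 0}) (isOpen_ne.preimage Complex.continuous_im)
    (F := fun k : ℕ => heatFlow (T k) xiWave) (fun k => ?_) (g := heatFlow t xiWave) ?_
    (tendsto_flow hlim) (Eventually.of_forall fun k w hw h0 => hw (hT k w h0))
    ⟨0, flow_zero_ne_zero t⟩ him hz
  · rw [heatFlow_xiWave]
    exact (gaussDecay_polyaPhi _).heatGrowth.diff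
  · rw [heatFlow_xiWave]
    exact (gaussDecay_polyaPhi _).heatGrowth.diff

theorem half_mem_realTimes : (1 / 2 : ℝ) ∈ realTimes := fun z hz => by
  have := stripZeros_xiWave.heat_zeros (show (0 : ℝ) ≤ 1 / 2 by norm_num) hz
  rw [max_eq_right (by norm_num)] at this
  exact sq_eq_zero_iff.1 (le_antisymm this (sq_nonneg _))

theorem realTimes_nonneg {t : ℝ} (ht : t ∈ realTimes) : 0 ≤ t := by
  by_contra hneg
  obtain ⟨z, hz, hz0⟩ := exists_zero_im_gt (c := -t) (by linarith) 0
  rw [neg_neg] at hz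
  rw [ht z hz, abs_zero] at hz0
  exact lt_irrefl _ hz0

theorem mem_realTimes_iff (t : ℝ) : t ∈ realTimes ↔ newmanLambda ≤ t :=
  have hb : BddBelow realTimes := ⟨0, fun _ => realTimes_nonneg⟩
  ⟨fun h => csInf_le hb h, fun h => mem_realTimes_mono
    (isClosed_realTimes.csInf_mem ⟨_, half_mem_realTimes⟩ hb) h⟩

theorem newmanLambda_nonneg : 0 ≤ newmanLambda :=
  le_csInf ⟨_, half_mem_realTimes⟩ fun _ => realTimes_nonneg

theorem newmanLambda_le_half : newmanLambda ≤ 1 / 2 :=
  (mem_realTimes_iff _).1 half_mem_realTimes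

end FA.DeBruijnNewman

end
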